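import Fermat.Agent.Ribet.Spec
import Fermat.Agent.Lib.Cheb.FrobeniusDivision
import Fermat.Agent.Lib.Frob.Glue
import Fermat.Agent.Lib.Frob.A1.Main
import Fermat.Agent.Lib.Frob.A2.Main
import Fermat.Agent.Lib.VC.BaseChange
import Fermat.Agent.S29.H872.Cyclo
import Fermat.Prelude.Def_GaloisRep_ComplexConjugation

/-!
# Row RIBET, piece AUX (helper463): the auxiliary prime

`Fermat.Agent.Ribet.H463.auxPrime : Spec.AuxPrimeStatement` — UNCONDITIONAL.

For every integral model `W` of the Frey curve there is a prime `q'` of good reduction of `W`,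
`q' ∤ N`, `q' ∉ {2, p}`, with `q' ≡ -1 mod p` and `a_{q'}(W) ≡ 0 mod p`.

Proof.  Let `c` be complex conjugation (Prelude `complexConjugation`), `P₀ ≠ 0` a `p`-torsion
point of `W(ℚ̄)`, `ζ` a primitive `p`-th root of unity, and `E` the (finite) extension of `ℚ`
generated by the coordinates of `P₀`, of `c P₀`, and by `ζ`.  The Frobenius division theorem
(`Lib/Cheb`, Tier 1) gives a prime `ℓ ≥ 5` of good reduction outside any finite set and a
Frobenius `τ` at `ℓ` with `⟨τ|E⟩ = ⟨c|E⟩`; as `c² = 1` and `c ζ = ζ⁻¹ ≠ ζ` this forces `τ = c` on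
`E`.  Then `ζ^ℓ = τ ζ = ζ⁻¹`, so `p ∣ ℓ + 1`; and the Frobenius relation (`Lib/Frob`)
`τ²P₀ - a_ℓ τP₀ + ℓ P₀ = 0` reads `a_ℓ • (c P₀) = (1 + ℓ) • P₀ = 0`, whence `p ∣ a_ℓ` since
`c P₀` has exact order `p`.  No Weil pairing, no trace formula, no `det = cyclotomic`.

The general statement for an arbitrary integral Weierstrass curve is `exists_aux_prime`.
-/

set_option autoImplicit false

open WeierstrassCurve WeierstrassCurve.Affine WeierstrassCurve.Affine.Point

namespace Fermat.Agent.Ribet.H463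

open Fermat.Agent.Lib.Frob (Qb Pts FrobRelation)

/-- The Frobenius relation of `Lib/Frob`, assembled. -/
theorem frobRelation_h463 : FrobRelation :=
  Fermat.Agent.Lib.Frob.frobRelation_of_parts Fermat.Agent.Lib.Frob.frobRelationFin
    Fermat.Agent.Lib.Frob.reductionData

/-- Complex conjugation inverts roots of unity. -/
theorem complexConjugation_root_h463 {m : ℕ} (hm : m ≠ 0) {t : Qb} (ht : t ^ m = 1) :
    complexConjugation t = t⁻¹ := by
  apply complexEmbedding.toRingHom.injective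
  show complexEmbedding (complexConjugation t) = complexEmbedding t⁻¹
  rw [complexEmbedding_complexConjugation, map_inv₀]
  have hz : (complexEmbedding t) ^ m = 1 := by rw [← map_pow, ht, map_one]
  have hnorm : ‖complexEmbedding t‖ = 1 := by
    have h := congrArg norm hz
    rw [norm_pow, norm_one] at h
    exact (pow_eq_one_iff_of_nonneg (norm_nonneg _) hm).1 h
  exact (Complex.inv_eq_conj hnorm).symm

theorem complexConjugation_apply_apply (x : Qb) : complexConjugation (complexConjugation x) = x := by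
  have h := congrArg (fun f : Qb ≃ₐ[ℚ] Qb => f x) complexConjugation_mul_self
  simpa using h

section points

variable (W : WeierstrassCurve ℤ)

/-- Two automorphisms agreeing on the coordinates of an affine point agree on the point. -/
theorem smul_some_congr {σ τ : Qb ≃ₐ[ℚ] Qb} {x y : Qb}
    (h : ((W.map (Int.castRingHom ℚ))⁄Qb).toAffine.Nonsingular x y)
    (hx : σ x = τ x) (hy : σ y = τ y) :
    σ • (Point.some x y h : Pts W) = τ • (Point.some x y h : Pts W) := by
  show Point.map σ.toAlgHom (Point.some x y h) = Point.map τ.toAlgHom (Point.some x y h)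
  rw [Point.map_some, Point.map_some]
  simp only [Point.some.injEq]
  exact ⟨hx, hy⟩

/-- Same, for the composite action. -/
theorem smul_smul_some_congr {σ τ : Qb ≃ₐ[ℚ] Qb} {x y : Qb}
    (h : ((W.map (Int.castRingHom ℚ))⁄Qb).toAffine.Nonsingular x y)
    (hx : σ (τ x) = x) (hy : σ (τ y) = y) :
    σ • τ • (Point.some x y h : Pts W) = (Point.some x y h : Pts W) := by
  show Point.map σ.toAlgHom (Point.map τ.toAlgHom (Point.some x y h)) = Point.some x y h
  rw [Point.map_some, Point.map_some]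
  simp only [Point.some.injEq]
  exact ⟨hx, hy⟩

end points

/-- If `p • Q = 0`, `a • Q = 0` and `Q ≠ 0` in an additive group, with `p` prime, then `p ∣ a`. -/
theorem dvd_of_zsmul_eq_zero {G : Type*} [AddCommGroup G] {p : ℕ} (hp : p.Prime) {Q : G}
    (hQ : Q ≠ 0) (hpQ : (p : ℤ) • Q = 0) {a : ℤ} (ha : a • Q = 0) : (p : ℤ) ∣ a := by
  by_contra hnd
  have hcop : IsCoprime (p : ℤ) a :=
    (Prime.coprime_iff_not_dvd (Nat.prime_iff_prime_int.mp hp)).mpr hnd
  obtain ⟨u, v, huv⟩ := hcop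
  have h0 : (u * (p : ℤ) + v * a) • Q = 0 := by
    rw [add_smul, mul_smul, mul_smul, hpQ, ha, smul_zero, smul_zero, add_zero]
  rw [huv, one_smul] at h0
  exact hQ h0

/-- **Auxiliary prime, general form.**  For an integral Weierstrass curve `W` with `Δ ≠ 0`, an odd
prime `p` such that `W(ℚ̄)` has a nonzero `p`-torsion point, and a finite set `S`, there is a
prime `q ≥ 5` outside `S`, `q ≠ p`, of good reduction, with `q ≡ -1` and `a_q(W) ≡ 0 mod p`. -/
theorem exists_aux_prime (W : WeierstrassCurve ℤ) (hΔ : W.Δ ≠ 0) {p : ℕ} (hp : p.Prime)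
    (hp2 : p ≠ 2) (P₀ : Pts W) (hP₀ : P₀ ≠ 0) (hpP₀ : p • P₀ = 0) (S : Finset ℕ) :
    ∃ q : ℕ, q.Prime ∧ q ∉ S ∧ 5 ≤ q ∧ q ≠ p ∧ W.IsGoodPrimeFor q ∧ p ∣ q + 1 ∧
      (p : ℤ) ∣ W.apOfModel q := by
  have : Fact p.Prime := ⟨hp⟩
  -- affine coordinates of `P₀`
  obtain ⟨x, y, h, rfl⟩ : ∃ (x y : Qb) (h : ((W.map (Int.castRingHom ℚ))⁄Qb).toAffine.Nonsingular x y),
      P₀ = Point.some x y h := by
    rcases P₀ with _ | ⟨x, y, h⟩
    · exact absurd rfl hP₀
    · exact ⟨x, y, h, rfl⟩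
  -- a primitive `p`-th root of unity
  have : NeZero (p : ℚ) := ⟨by exact_mod_cast hp.ne_zero⟩
  obtain ⟨ζ, hζ⟩ := HasEnoughRootsOfUnity.exists_primitiveRoot Qb p
  have hζp : ζ ^ p = 1 := hζ.pow_eq_one
  have hζ0 : ζ ≠ 0 := hζ.ne_zero hp.ne_zero
  have hcζ : complexConjugation ζ = ζ⁻¹ := complexConjugation_root_h463 hp.ne_zero hζp
  -- the finite extension `E`
  set T : Set Qb := {x, y, complexConjugation x, complexConjugation y, ζ} with hT
  set E : IntermediateField ℚ Qb := IntermediateField.adjoin ℚ T with hE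
  have hTfin : T.Finite := by
    rw [hT]
    exact Set.toFinite _
  have hfin : FiniteDimensional ℚ E := by
    have : Finite T := hTfin
    exact IntermediateField.finiteDimensional_adjoin
      (fun z _ => ((AlgebraicClosure.isAlgebraic ℚ).isIntegral).isIntegral z)
  have hmem : ∀ z ∈ T, z ∈ E := fun z hz => IntermediateField.subset_adjoin ℚ T hz
  have hxE : x ∈ E := hmem x (by rw [hT]; simp)
  have hyE : y ∈ E := hmem y (by rw [hT]; simp)
  have hcxE : complexConjugation x ∈ E := hmem _ (by rw [hT]; simp)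
  have hcyE : complexConjugation y ∈ E := hmem _ (by rw [hT]; simp)
  have hζE : ζ ∈ E := hmem ζ (by rw [hT]; simp)
  -- Frobenius division theorem
  obtain ⟨ℓ, A, τ, k, j, hℓ, hℓS, hA, hτ, -, hk, hj⟩ :=
    Fermat.Agent.Lib.Cheb.frobeniusDivision E hfin complexConjugation
      (S ∪ {2, 3, p} ∪ W.Δ.natAbs.primeFactors)
  simp only [Finset.mem_union, Finset.mem_insert, Finset.mem_singleton, not_or] at hℓS
  obtain ⟨⟨hℓS, hℓ2, hℓ3, hℓp⟩, hℓΔ⟩ := hℓS
  have h5 : 5 ≤ ℓ := by
    by_contra hlt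
    have h2 := hℓ.two_le
    have h4 : ℓ = 4 := by omega
    rw [h4] at hℓ
    exact absurd hℓ (by decide)
  have hgood : W.IsGoodPrimeFor ℓ := by
    intro hdvd
    apply hℓΔ
    rw [Nat.mem_primeFactors]
    exact ⟨hℓ, Int.natCast_dvd.mp hdvd, Int.natAbs_ne_zero.mpr hΔ⟩
  -- `τ = c` on `E`
  have hτc : ∀ z ∈ E, τ z = complexConjugation z := by
    rcases Nat.even_or_odd k with ⟨r, hr⟩ | ⟨r, hr⟩
    · -- `c ^ k = 1`: impossible
      exfalso
      have hck : complexConjugation ^ k = 1 := by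
        rw [hr, ← two_mul, pow_mul, complexConjugation_sq, one_pow]
      have hτ1 : ∀ z ∈ E, τ z = z := fun z hz => by rw [hk z hz, hck]; rfl
      have hτj : ∀ n : ℕ, ∀ z ∈ E, (τ ^ n) z = z := by
        intro n
        induction n with
        | zero => intro z _; rfl
        | succ n ih =>
          intro z hz
          rw [pow_succ, AlgEquiv.mul_apply, hτ1 z hz, ih z hz]
      have h1 : complexConjugation ζ = ζ := by rw [← hj ζ hζE, hτj j ζ hζE]
      rw [hcζ] at h1
      have h2 : ζ ^ 2 = 1 := by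
        rw [pow_two]
        nth_rewrite 1 [← h1]
        exact inv_mul_cancel₀ hζ0
      have h3 : p ∣ 2 := hζ.dvd_of_pow_eq_one 2 h2
      exact hp2 ((Nat.prime_dvd_prime_iff_eq hp Nat.prime_two).mp h3)
    · intro z hz
      have hck : complexConjugation ^ k = complexConjugation := by
        rw [hr, pow_succ, pow_mul, complexConjugation_sq, one_pow, one_mul]
      rw [hk z hz, hck]
  -- `p ∣ ℓ + 1`
  have hτζ : τ ζ = ζ ^ ℓ := Fermat.Agent.S29.H872.frob_root_eq_pow p hℓ hℓp A hA τ hτ hζp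
  have hdvd : p ∣ ℓ + 1 := by
    apply hζ.dvd_of_pow_eq_one
    rw [pow_succ, ← hτζ, hτc ζ hζE, hcζ]
    exact inv_mul_cancel₀ hζ0
  refine ⟨ℓ, hℓ, hℓS, h5, hℓp, hgood, hdvd, ?_⟩
  -- the Frobenius relation at `P₀`
  have hℓnp : ¬ ℓ ∣ p := fun hd => hℓp ((Nat.prime_dvd_prime_iff_eq hℓ hp).mp hd)
  have hrel := frobRelation_h463 W ℓ hℓ h5 hgood A τ hA hτ p hp.pos hℓnp (Point.some x y h) hpP₀
  -- `τ • P₀ = c • P₀`, `τ • τ • P₀ = P₀`
  have e1 : τ • (Point.some x y h : Pts W) = complexConjugation • (Point.some x y h : Pts W) :=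
    smul_some_congr W h (hτc x hxE) (hτc y hyE)
  have e2 : τ • complexConjugation • (Point.some x y h : Pts W) = (Point.some x y h : Pts W) :=
    smul_smul_some_congr W h
      (by rw [hτc _ hcxE]; exact complexConjugation_apply_apply x)
      (by rw [hτc _ hcyE]; exact complexConjugation_apply_apply y)
  rw [e1, e2] at hrel
  set Q : Pts W := complexConjugation • (Point.some x y h : Pts W) with hQ
  have hpP₀' : (p : ℤ) • (Point.some x y h : Pts W) = 0 := by
    rw [natCast_zsmul]; exact hpP₀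
  have hQ0 : Q ≠ 0 := by
    intro h0
    exact hP₀ ((smul_eq_zero_iff_eq complexConjugation).mp h0)
  have hpQ : (p : ℤ) • Q = 0 := by
    rw [hQ, ← algEquiv_smul_zsmul, hpP₀', smul_zero]
  have haQ : W.apOfModel ℓ • Q = 0 := by
    obtain ⟨m, hm⟩ := hdvd
    have h1 : ((ℓ : ℤ) + 1) • (Point.some x y h : Pts W) = 0 := by
      have : ((ℓ : ℤ) + 1) = (m : ℤ) * (p : ℤ) := by
        have := congrArg (Nat.cast : ℕ → ℤ) hm
        push_cast at this
        rw [this]; ring
      rw [this, mul_smul, hpP₀']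
      exact zsmul_zero _
    have h2 : W.apOfModel ℓ • Q = ((ℓ : ℤ) + 1) • (Point.some x y h : Pts W) := by
      rw [add_zsmul, one_zsmul]
      have := hrel
      rw [sub_add_eq_add_sub, sub_eq_zero] at this
      rw [← this, add_comm]
    rw [h2, h1]
  exact dvd_of_zsmul_eq_zero hp hQ0 hpQ haQ

/-! ## The Frey curve -/

section frey

variable (P : FreyPackage)

/-- The discriminant of the Frey curve is `(abc)^{2p} / 2^8`. -/
theorem freyCurve_Δ_h463 :
    P.freyCurve.Δ = ((P.a * P.b * P.c : ℤ) : ℚ) ^ (2 * P.p) / 2 ^ 8 := by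
  have hc : ((P.c : ℤ) : ℚ) ^ P.p = (P.a : ℚ) ^ P.p + (P.b : ℚ) ^ P.p := by
    have := congrArg (Int.cast : ℤ → ℚ) P.hFLT
    push_cast at this
    exact this.symm
  simp only [WeierstrassCurve.Δ, WeierstrassCurve.b₂, WeierstrassCurve.b₄, WeierstrassCurve.b₆,
    WeierstrassCurve.b₈, FreyPackage.freyCurve]
  push_cast
  rw [pow_mul', mul_pow, mul_pow, hc]
  ring

theorem freyCurve_Δ_ne_zero_h463 : P.freyCurve.Δ ≠ 0 := by
  rw [freyCurve_Δ_h463]
  have h := P.habc0
  have : ((P.a * P.b * P.c : ℤ) : ℚ) ≠ 0 := by exact_mod_cast h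
  positivity

/-- An integral model of the Frey curve has nonzero discriminant. -/
theorem Δ_ne_zero_of_isIntegralModelOf {W : WeierstrassCurve ℤ}
    (hW : W.IsIntegralModelOf P.freyCurve) : W.Δ ≠ 0 := by
  obtain ⟨C, hC⟩ := hW
  intro h0
  have h1 : (C • P.freyCurve).Δ = 0 := by
    rw [hC, WeierstrassCurve.map_Δ, h0, _root_.map_zero]
  rw [WeierstrassCurve.variableChange_Δ] at h1
  rcases mul_eq_zero.mp h1 with h2 | h2
  · exact absurd (pow_eq_zero_iff (by norm_num) |>.mp h2) (Units.ne_zero _)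
  · exact freyCurve_Δ_ne_zero_h463 P h2

/-- A nonzero `p`-torsion point of the Frey curve gives one on every integral model. -/
theorem exists_torsion_of_isIntegralModelOf {W : WeierstrassCurve ℤ}
    (hW : W.IsIntegralModelOf P.freyCurve)
    (hnt : Nontrivial (Submodule.torsionBy ℤ (P.freyCurve⁄Qb).Point P.p)) :
    ∃ P₀ : Pts W, P₀ ≠ 0 ∧ P.p • P₀ = 0 := by
  obtain ⟨C, hC⟩ := hW
  obtain ⟨P₁, hP₁⟩ := exists_ne (0 : Submodule.torsionBy ℤ (P.freyCurve⁄Qb).Point P.p)
  have hP₁0 : (P₁ : (P.freyCurve⁄Qb).Point) ≠ 0 := fun h => hP₁ (Subtype.ext h)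
  have hP₁p : ((P.p : ℕ) : ℤ) • (P₁ : (P.freyCurve⁄Qb).Point) = 0 :=
    (Submodule.mem_torsionBy_iff _ _).mp P₁.2
  have key : ∀ W' : WeierstrassCurve ℚ, C • P.freyCurve = W' →
      ∃ P₀ : (W'⁄Qb).Point, P₀ ≠ 0 ∧ P.p • P₀ = 0 := by
    rintro _ rfl
    refine ⟨(Fermat.Agent.Lib.VC.vcPointBC P.freyCurve C Qb).symm P₁, ?_, ?_⟩
    · intro h0
      apply hP₁0
      have := congrArg (Fermat.Agent.Lib.VC.vcPointBC P.freyCurve C Qb) h0
      rwa [AddEquiv.apply_symm_apply, _root_.map_zero] at this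
    · rw [← map_nsmul, ← natCast_zsmul, hP₁p, _root_.map_zero]
  exact key _ hC

end frey

/-- **Piece AUX of row RIBET** (unconditional): the auxiliary prime. -/
theorem auxPrime : Spec.AuxPrimeStatement := by
  intro P N W hN hW hirr
  have hΔ : W.Δ ≠ 0 := Δ_ne_zero_of_isIntegralModelOf P hW
  obtain ⟨P₀, hP₀, hpP₀⟩ := exists_torsion_of_isIntegralModelOf P hW hirr.1
  have hp2 : P.p ≠ 2 := by have := P.hp5; omega
  obtain ⟨q, hq, hqS, h5, hqp, hgood, hdvd, ha⟩ :=
    exists_aux_prime W hΔ P.pp hp2 P₀ hP₀ hpP₀ N.divisors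
  refine ⟨q, hq, ?_, hqp, by omega, hgood, hdvd, ha⟩
  intro hqN
  exact hqS (Nat.mem_divisors.mpr ⟨hqN, hN.ne'⟩)

end Fermat.Agent.Ribet.H463
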