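import Fermat.Agent.Ribet.H463.NodeSlopeFrac
import Fermat.Agent.Ribet.H704.I6Core
import Fermat.Agent.A2.H852.ThicknessNode

/-!
# RIBET / WALL-p (I6): the NODE leaf in the frozen shapes of `Ribet/H704/I6Spec.lean`, `I6Core.lean`

* `nodeRelFrac : H704.I6.NodeRelFracStatement`  (fraction form, consumed by the assembly),
* `nodeRel : H704.I6.NodeRelStatement`          (element form),
* `nodeRelExact : H704.I6.NodeRelExactStatement` (no horizontal zero: exact equality),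

all from the thick-node relation `IsNode463.dvd_slope_right` of `NodeSlopeFrac.lean`:
the unit pair `D D' = π ^ N` gives the normal form `x' y' = unit · π ^ n` (`A2/H852`), the node
relation for `u = D` gives `N = n · ord₁ D`, and the node relation for `u` gives the statement.
-/

set_option autoImplicit false

namespace Fermat.Agent.Ribet.H463

open Ideal Fermat.Agent.A2.H609 Fermat.Agent.Ribet.H704

section AssocPow

variable {D : Type*} [CommRing D] [IsDomain D]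

/-- A non-unit `ϖ ≠ 0` such that every nonzero element is associated to a power of `ϖ` is
irreducible. -/
theorem irreducible_of_assoc_pow463 {ϖ : D} (h0 : ϖ ≠ 0) (hnu : ¬ IsUnit ϖ)
    (hall : ∀ a : D, a ≠ 0 → ∃ s : ℕ, Associated a (ϖ ^ s)) : Irreducible ϖ := by
  rw [irreducible_iff]
  refine ⟨hnu, fun a b hab => ?_⟩
  have ha0 : a ≠ 0 := by
    rintro rfl
    rw [zero_mul] at hab
    exact h0 hab
  have hb0 : b ≠ 0 := by
    rintro rfl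
    rw [mul_zero] at hab
    exact h0 hab
  obtain ⟨i, hi⟩ := hall a ha0
  obtain ⟨j, hj⟩ := hall b hb0
  rcases Nat.eq_zero_or_pos i with rfl | hi0
  · left
    rw [pow_zero] at hi
    exact hi.symm.isUnit isUnit_one
  rcases Nat.eq_zero_or_pos j with rfl | hj0
  · right
    rw [pow_zero] at hj
    exact hj.symm.isUnit isUnit_one
  exfalso
  have h1 : Associated ϖ (ϖ ^ (i + j)) := by
    have h5 := hi.mul_mul hj
    rwa [← hab, ← pow_add] at h5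
  obtain ⟨w, hw⟩ := h1
  obtain ⟨t, ht⟩ : ∃ t, i + j = t + 1 + 1 := ⟨i + j - 2, by omega⟩
  rw [ht, pow_succ] at hw
  have h2 : ϖ * (w : D) = ϖ * ϖ ^ (t + 1) := by rw [hw]; ring
  have h3 : (w : D) = ϖ ^ (t + 1) := mul_left_cancel₀ h0 h2
  have h4 : ϖ ∣ (w : D) := by
    rw [h3, pow_succ]
    exact Dvd.intro_left _ rfl
  exact hnu (isUnit_of_dvd_unit h4 w.isUnit)

theorem isDVR_of_assoc_pow463 {ϖ : D} (h0 : ϖ ≠ 0) (hnu : ¬ IsUnit ϖ)
    (hall : ∀ a : D, a ≠ 0 → ∃ s : ℕ, Associated a (ϖ ^ s)) : IsDiscreteValuationRing D :=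
  IsDiscreteValuationRing.ofHasUnitMulPowIrreducibleFactorization
    ⟨ϖ, irreducible_of_assoc_pow463 h0 hnu hall, fun {x} hx => by
      obtain ⟨s, hs⟩ := hall x hx
      exact ⟨s, hs.symm⟩⟩

end AssocPow

section FromIsNode

variable {R : Type*} [CommRing R] [IsLocalRing R] {𝔭₁ 𝔭₂ : Ideal R} {π x y : R}

theorem I6_forall_assoc₁ (h : I6.IsNode 𝔭₁ 𝔭₂ π x y) :
    ∀ a : R ⧸ 𝔭₁, a ≠ 0 → ∃ s : ℕ, Associated a ((Ideal.Quotient.mk 𝔭₁ x) ^ s) := by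
  intro a ha
  obtain ⟨a', rfl⟩ := Ideal.Quotient.mk_surjective a
  have ha' : a' ∉ 𝔭₁ := fun hmem => ha (Ideal.Quotient.eq_zero_iff_mem.mpr hmem)
  exact h.unif₁ a' ha'

theorem I6_forall_assoc₂ (h : I6.IsNode 𝔭₁ 𝔭₂ π x y) :
    ∀ a : R ⧸ 𝔭₂, a ≠ 0 → ∃ s : ℕ, Associated a ((Ideal.Quotient.mk 𝔭₂ y) ^ s) := by
  intro a ha
  obtain ⟨a', rfl⟩ := Ideal.Quotient.mk_surjective a
  have ha' : a' ∉ 𝔭₂ := fun hmem => ha (Ideal.Quotient.eq_zero_iff_mem.mpr hmem)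
  exact h.unif₂ a' ha'

theorem I6_mk_x_ne_zero (h : I6.IsNode 𝔭₁ 𝔭₂ π x y) : Ideal.Quotient.mk 𝔭₁ x ≠ 0 := fun h0 =>
  h.hx₁ (Ideal.Quotient.eq_zero_iff_mem.mp h0)

theorem I6_mk_y_ne_zero (h : I6.IsNode 𝔭₁ 𝔭₂ π x y) : Ideal.Quotient.mk 𝔭₂ y ≠ 0 := fun h0 =>
  h.hy₂ (Ideal.Quotient.eq_zero_iff_mem.mp h0)

theorem I6_irreducible₁ [𝔭₁.IsPrime] (h : I6.IsNode 𝔭₁ 𝔭₂ π x y) :
    Irreducible (Ideal.Quotient.mk 𝔭₁ x) :=
  irreducible_of_assoc_pow463 (I6_mk_x_ne_zero h) h.nonunit₁ (I6_forall_assoc₁ h)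

theorem I6_irreducible₂ [𝔭₂.IsPrime] (h : I6.IsNode 𝔭₁ 𝔭₂ π x y) :
    Irreducible (Ideal.Quotient.mk 𝔭₂ y) :=
  irreducible_of_assoc_pow463 (I6_mk_y_ne_zero h) h.nonunit₂ (I6_forall_assoc₂ h)

theorem I6_isDVR₁ [𝔭₁.IsPrime] (h : I6.IsNode 𝔭₁ 𝔭₂ π x y) :
    IsDiscreteValuationRing (R ⧸ 𝔭₁) :=
  isDVR_of_assoc_pow463 (I6_mk_x_ne_zero h) h.nonunit₁ (I6_forall_assoc₁ h)

theorem I6_isDVR₂ [𝔭₂.IsPrime] (h : I6.IsNode 𝔭₁ 𝔭₂ π x y) :
    IsDiscreteValuationRing (R ⧸ 𝔭₂) :=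
  isDVR_of_assoc_pow463 (I6_mk_y_ne_zero h) h.nonunit₂ (I6_forall_assoc₂ h)

omit [IsLocalRing R] in
/-- `OrdOn` as an equation `a ≡ unit · ϖ ^ s`. -/
theorem ordOn_eq463 {𝔭 : Ideal R} {ϖ a : R} {s : ℕ} (h : I6.OrdOn 𝔭 ϖ a s) :
    ∃ ε : (R ⧸ 𝔭)ˣ, Ideal.Quotient.mk 𝔭 a = ε * (Ideal.Quotient.mk 𝔭 ϖ) ^ s := by
  obtain ⟨w, hw⟩ := h
  refine ⟨w⁻¹, ?_⟩
  rw [← hw, mul_comm, mul_assoc, Units.mul_inv, mul_one]

/-- A unit of `R ⧸ 𝔭` lifts to a unit of the local ring `R`. -/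
theorem exists_unit_lift463 {𝔭 : Ideal R} [𝔭.IsPrime] (ε : (R ⧸ 𝔭)ˣ) :
    ∃ e : R, IsUnit e ∧ Ideal.Quotient.mk 𝔭 e = ε := by
  obtain ⟨e, he⟩ := Ideal.Quotient.mk_surjective (ε : R ⧸ 𝔭)
  refine ⟨e, ?_, he⟩
  by_contra hnu
  have hloc : IsLocalHom (Ideal.Quotient.mk 𝔭) :=
    Function.Surjective.isLocalHom _ Ideal.Quotient.mk_surjective
  exact hnu (IsLocalHom.map_nonunit e (he ▸ ε.isUnit))

/-- **Thick normal form of a node with a unit pair** (`A2/H852`): new branch uniformisers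
`x' ≡ x`, `y' ≡ y (mod π)` with `x' y' = unit · π ^ n`. -/
theorem exists_isNode463 [IsDomain R] [𝔭₁.IsPrime] [𝔭₂.IsPrime]
    [IsDiscreteValuationRing (R ⧸ 𝔭₁)] [IsDiscreteValuationRing (R ⧸ 𝔭₂)]
    (h : I6.IsNode 𝔭₁ 𝔭₂ π x y) {D D' : R} {N : ℕ} (hN : 0 < N)
    (hDD : I6.IsUnitPair 𝔭₁ 𝔭₂ π D D' N) {k : ℕ} (hk : I6.OrdOn 𝔭₁ x D k) :
    ∃ (x' y' : R) (n : ℕ), IsNode463 𝔭₁ 𝔭₂ π x' y' n ∧
      Ideal.Quotient.mk 𝔭₁ x' = Ideal.Quotient.mk 𝔭₁ x ∧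
      Ideal.Quotient.mk 𝔭₂ y' = Ideal.Quotient.mk 𝔭₂ y := by
  have hπ₁ : π ∈ 𝔭₁ :=
    (inf_le_left : 𝔭₁ ⊓ 𝔭₂ ≤ 𝔭₁) (h.inf_eq ▸ Ideal.mem_span_singleton_self π)
  have hπ₂ : π ∈ 𝔭₂ :=
    (inf_le_right : 𝔭₁ ⊓ 𝔭₂ ≤ 𝔭₂) (h.inf_eq ▸ Ideal.mem_span_singleton_self π)
  have hcap : ∀ z, z ∈ 𝔭₁ → z ∈ 𝔭₂ → π ∣ z := by
    intro z h1 h2
    have hz : z ∈ 𝔭₁ ⊓ 𝔭₂ := ⟨h1, h2⟩
    rw [h.inf_eq] at hz
    exact Ideal.mem_span_singleton.mp hz
  have hπ0 : π ≠ 0 := by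
    rintro rfl
    have h0 := hDD.mul_eq
    rw [zero_pow hN.ne'] at h0
    rcases mul_eq_zero.mp h0 with h1 | h1
    · exact hDD.hD (h1 ▸ 𝔭₁.zero_mem)
    · exact hDD.hD' (h1 ▸ 𝔭₂.zero_mem)
  have hxirr := I6_irreducible₁ h
  have hyirr := I6_irreducible₂ h
  have h𝔭₁𝔪 : 𝔭₁ ≤ IsLocalRing.maximalIdeal R := h.sup_eq ▸ le_sup_left
  have h𝔭₂𝔪 : 𝔭₂ ≤ IsLocalRing.maximalIdeal R := h.sup_eq ▸ le_sup_right
  have h2 : 𝔭₂ ≤ Ideal.span {x, y, π} := by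
    refine (le_span_sup_inf 𝔭₁ 𝔭₂ h.hx hxirr h𝔭₂𝔪).trans (sup_le ?_ ?_)
    · rw [Ideal.span_singleton_le_iff_mem]
      exact Ideal.subset_span (by simp)
    · rw [h.inf_eq, Ideal.span_singleton_le_iff_mem]
      exact Ideal.subset_span (by simp)
  have h1 : 𝔭₁ ≤ Ideal.span {x, y, π} := by
    refine (le_span_sup_inf 𝔭₂ 𝔭₁ h.hy hyirr h𝔭₁𝔪).trans (sup_le ?_ ?_)
    · rw [Ideal.span_singleton_le_iff_mem]
      exact Ideal.subset_span (by simp)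
    · rw [inf_comm, h.inf_eq, Ideal.span_singleton_le_iff_mem]
      exact Ideal.subset_span (by simp)
  have hm : IsLocalRing.maximalIdeal R = Ideal.span {x, y, π} := by
    apply le_antisymm
    · rw [← h.sup_eq]
      exact sup_le h1 h2
    · rw [Ideal.span_le]
      intro z hz
      simp only [Set.mem_insert_iff, Set.mem_singleton_iff] at hz
      rcases hz with rfl | rfl | rfl
      · exact h𝔭₂𝔪 h.hx
      · exact h𝔭₁𝔪 h.hy
      · exact h𝔭₁𝔪 hπ₁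
  obtain ⟨G, hG⟩ := hcap (x * y) (𝔭₁.mul_mem_left _ h.hy) (𝔭₂.mul_mem_right _ h.hx)
  obtain ⟨ε', hε'⟩ := ordOn_eq463 hk
  obtain ⟨ε, hεu, hεmk⟩ := exists_unit_lift463 ε'
  have hDS : D - ε * x ^ k ∈ 𝔭₁ := by
    rw [← Ideal.Quotient.eq, hε', map_mul, map_pow, hεmk]
  obtain ⟨S', T', G', ⟨β, hβ⟩, ⟨α, hα⟩, -, t, -, hprod, hG'⟩ :=
    Fermat.Agent.A2.H852.node_normal_form_exact 𝔭₁ 𝔭₂ π x y G D D' ε N k hπ0 hπ₁ hπ₂ hcap hm
      h.hx₁ h.hy₂ hG hN hDD.mul_eq hDD.hD hDD.hD' hεu hDS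
  have hS₁ : Ideal.Quotient.mk 𝔭₁ S' = Ideal.Quotient.mk 𝔭₁ x := by
    rw [Ideal.Quotient.eq, hβ]
    have : x - π * β - x = -(π * β) := by ring
    rw [this]
    exact 𝔭₁.neg_mem (𝔭₁.mul_mem_right _ hπ₁)
  have hT₂ : Ideal.Quotient.mk 𝔭₂ T' = Ideal.Quotient.mk 𝔭₂ y := by
    rw [Ideal.Quotient.eq, hα]
    have : y - π * α - y = -(π * α) := by ring
    rw [this]
    exact 𝔭₂.neg_mem (𝔭₂.mul_mem_right _ hπ₂)
  refine ⟨S', T', t + 1, ⟨h.inf_eq, h.sup_eq, ?_, ?_, ?_, ?_, ?_⟩, hS₁, hT₂⟩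
  · rw [hβ]
    exact 𝔭₂.sub_mem h.hx (𝔭₂.mul_mem_right _ hπ₂)
  · rw [hS₁]
    exact hxirr
  · rw [hα]
    exact 𝔭₁.sub_mem h.hy (𝔭₁.mul_mem_right _ hπ₁)
  · rw [hT₂]
    exact hyirr
  · exact ⟨hG'.unit, by rw [hprod, IsUnit.unit_spec, mul_comm]⟩

end FromIsNode

section Frac

variable {R : Type*} [CommRing R] [IsDomain R]
variable {K : Type*} [Field K] [Algebra R K] [IsFractionRing R K]

omit [IsDomain R] in
/-- The valuation along a branch is unique. -/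
theorem valAt_unique463 {𝔭 : Ideal R} [𝔭.IsPrime] {π : R} (hπ : π ∈ 𝔭) (hπ0 : π ≠ 0) {u : K}
    {v v' : ℤ} (h : I6.ValAt K 𝔭 π u v) (h' : I6.ValAt K 𝔭 π u v') : v = v' := by
  have hinj : Function.Injective (algebraMap R K) := IsFractionRing.injective R K
  have hP0 : algebraMap R K π ≠ 0 := fun h0 => hπ0 (hinj (by rw [h0, map_zero]))
  have key : ∀ {v v' : ℤ}, I6.ValAt K 𝔭 π u v → I6.ValAt K 𝔭 π u v' → ¬ v < v' := by
    intro v v' h h' hlt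
    obtain ⟨a, b, ha, hb, hab⟩ := h
    obtain ⟨a', b', ha', hb', hab'⟩ := h'
    obtain ⟨d, hd⟩ : ∃ d : ℕ, v' = v + (d + 1 : ℕ) := ⟨(v' - v - 1).toNat, by
      have : 0 ≤ v' - v - 1 := by omega
      push_cast
      rw [Int.toNat_of_nonneg this]
      ring⟩
    have h1 : algebraMap R K π ^ v * algebraMap R K (a * b') =
        algebraMap R K π ^ v * algebraMap R K (π ^ (d + 1) * a' * b) := by
      calc algebraMap R K π ^ v * algebraMap R K (a * b')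
          = (algebraMap R K π ^ v * algebraMap R K a) * algebraMap R K b' := by
            rw [map_mul]; ring
        _ = (u * algebraMap R K b') * algebraMap R K b := by rw [← hab]; ring
        _ = algebraMap R K π ^ v * algebraMap R K (π ^ (d + 1) * a' * b) := by
            rw [hab', hd, zpow_add₀ hP0, zpow_natCast]
            simp only [map_mul, map_pow]
            ring
    have h2 : a * b' = π ^ (d + 1) * a' * b :=
      hinj (mul_left_cancel₀ (zpow_ne_zero v hP0) h1)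
    have h3 : a * b' ∈ 𝔭 := by
      rw [h2, pow_succ]
      exact 𝔭.mul_mem_right _ (𝔭.mul_mem_right _ (𝔭.mul_mem_left _ hπ))
    rcases Ideal.IsPrime.mem_or_mem inferInstance h3 with h4 | h4
    · exact ha h4
    · exact hb' h4
  rcases lt_trichotomy v v' with hlt | heq | hgt
  · exact absurd hlt (key h h')
  · exact heq
  · exact absurd hgt (key h' h)

omit [IsDomain R] in
/-- `HorDivFrac` (ring form of (H1) for a representative) implies the valuation form of (H1). -/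
theorem hdiv_of_horDivFrac463 {π : R} (hπ0 : π ≠ 0) {m : ℕ} (hm : m ≠ 0) {u : K}
    (h : I6.HorDivFrac K π m u) :
    ∀ V : ValuationSubring K, IsDiscreteValuationRing V →
      (∀ r : R, algebraMap R K r ∈ V) → (algebraMap R K π)⁻¹ ∈ V →
      ∃ g u₀ : K, u₀ ∈ V ∧ u₀⁻¹ ∈ V ∧ u = u₀ * g ^ m := by
  intro V _ hle hπV
  have hinj : Function.Injective (algebraMap R K) := IsFractionRing.injective R K
  have hP0 : algebraMap R K π ≠ 0 := fun h0 => hπ0 (hinj (by rw [h0, map_zero]))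
  obtain ⟨a, b, hb0, hab, hHor⟩ := h
  have hbK : algebraMap R K b ≠ 0 := fun h0 => hb0 (hinj (by rw [h0, map_zero]))
  obtain ⟨m', rfl⟩ : ∃ m', m = m' + 1 := ⟨m - 1, by omega⟩
  rw [Nat.add_sub_cancel] at hHor
  -- the centre of `V` on `R`
  obtain ⟨φ, hφ⟩ : ∃ φ : R →+* V, ∀ r, ((φ r : V) : K) = algebraMap R K r :=
    ⟨(algebraMap R K).codRestrict V hle, fun r => rfl⟩
  obtain ⟨𝔓, h𝔓⟩ : ∃ 𝔓 : Ideal R, 𝔓 = (IsLocalRing.maximalIdeal V).comap φ := ⟨_, rfl⟩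
  have h𝔓p : 𝔓.IsPrime := by
    rw [h𝔓]
    exact Ideal.comap_isPrime φ _
  have hunit : ∀ r : R, r ∉ 𝔓 → (algebraMap R K r)⁻¹ ∈ V := by
    intro r hr
    have h1 : IsUnit (φ r) := by
      by_contra hnu
      apply hr
      rw [h𝔓, Ideal.mem_comap]
      exact (IsLocalRing.mem_maximalIdeal _).mpr hnu
    obtain ⟨w, hw⟩ := h1
    have h2 : algebraMap R K r * (((w⁻¹ : Vˣ) : V) : K) = 1 := by
      rw [← hφ r, ← hw]
      exact_mod_cast congrArg (fun z : V => (z : K)) (w.mul_inv)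
    rw [← eq_inv_of_mul_eq_one_right h2]
    exact (((w⁻¹ : Vˣ) : V)).2
  have hπ𝔓 : π ∉ 𝔓 := by
    intro hmem
    rw [h𝔓, Ideal.mem_comap] at hmem
    have h1 : IsUnit (φ π) := by
      refine IsUnit.of_mul_eq_one (⟨(algebraMap R K π)⁻¹, hπV⟩ : V) ?_
      apply Subtype.ext
      show ((φ π : V) : K) * (algebraMap R K π)⁻¹ = 1
      rw [hφ, mul_inv_cancel₀ hP0]
    exact (IsLocalRing.mem_maximalIdeal _).mp hmem h1
  have huw : u * algebraMap R K b ^ (m' + 1) = algebraMap R K (a * b ^ m') := by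
    rw [map_mul, map_pow, ← hab]
    ring
  by_cases hw : a * b ^ m' ∈ 𝔓
  · obtain ⟨f, r, hr, hfr⟩ := hHor 𝔓 h𝔓p hw hπ𝔓
    have hrK : algebraMap R K r ≠ 0 := fun h0 => hr (by
      rw [hinj (by rw [h0, map_zero] : algebraMap R K r = algebraMap R K 0)]
      exact 𝔓.zero_mem)
    refine ⟨algebraMap R K f / algebraMap R K b, (algebraMap R K r)⁻¹, hunit r hr, ?_, ?_⟩
    · rw [inv_inv]
      exact hle r
    · have h3 : algebraMap R K f ^ (m' + 1) = algebraMap R K (a * b ^ m') * algebraMap R K r := by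
        rw [← map_pow, hfr, map_mul]
      rw [div_pow, h3, ← huw]
      field_simp
  · refine ⟨(algebraMap R K b)⁻¹, algebraMap R K (a * b ^ m'), hle _, hunit _ hw, ?_⟩
    rw [← huw, inv_pow]
    field_simp

end Frac

section Thick

variable {R : Type*} [CommRing R] [IsLocalRing R] [IsDomain R] [IsIntegrallyClosed R]
  [IsNoetherianRing R]
variable {𝔭₁ 𝔭₂ : Ideal R} [𝔭₁.IsPrime] [𝔭₂.IsPrime]
  [IsDiscreteValuationRing (R ⧸ 𝔭₁)] [IsDiscreteValuationRing (R ⧸ 𝔭₂)] {π x y : R} {n : ℕ}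

omit [IsLocalRing R] [IsDomain R] [IsIntegrallyClosed R] [IsNoetherianRing R] in
/-- An integer divisible by every positive integer is zero. -/
theorem eq_zero_of_forall_dvd463 {Z : ℤ} (h : ∀ m : ℕ, m ≠ 0 → (m : ℤ) ∣ Z) : Z = 0 := by
  have h1 := h (Z.natAbs + 1) (Nat.succ_ne_zero _)
  refine Int.eq_zero_of_dvd_of_natAbs_lt_natAbs h1 ?_
  rw [Int.natAbs_natCast]
  exact Nat.lt_succ_self _

/-- **Thickness from a unit pair**: `N = n · ord₁(D)`. -/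
theorem IsNode463.thickness_mul_ord (h : IsNode463 𝔭₁ 𝔭₂ π x y n) {D D' : R} {N k : ℕ}
    (hDD : D * D' = π ^ N) (hD : D ∉ 𝔭₁) (hD' : D' ∉ 𝔭₂) {ε : (R ⧸ 𝔭₁)ˣ}
    (hk : Ideal.Quotient.mk 𝔭₁ D = ε * (Ideal.Quotient.mk 𝔭₁ x) ^ k) : N = n * k := by
  obtain ⟨K, _, _, _⟩ : ∃ (K : Type _) (_ : Field K) (_ : Algebra R K), IsFractionRing R K :=
    ⟨FractionRing R, inferInstance, inferInstance, inferInstance⟩
  have hinj : Function.Injective (algebraMap R K) := IsFractionRing.injective R K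
  have hP0 : algebraMap R K π ≠ 0 := fun h0 => h.pi_ne_zero (hinj (by rw [h0, map_zero]))
  have h1₁ : (1 : R) ∉ 𝔭₁ := (Ideal.ne_top_iff_one 𝔭₁).mp (Ideal.IsPrime.ne_top inferInstance)
  have h1₂ : (1 : R) ∉ 𝔭₂ := (Ideal.ne_top_iff_one 𝔭₂).mp (Ideal.IsPrime.ne_top inferInstance)
  have hZ : (n : ℤ) * (n * ((k : ℤ) - (0 : ℕ)) + (0 : ℤ) - (N : ℤ)) = 0 := by
    apply eq_zero_of_forall_dvd463
    intro m hm
    refine h.dvd_slope_left (K := K) hm (u := algebraMap R K D) ?_ hD h1₁ h1₂ hD' ?_ ?_ hk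
      (εb := 1) ?_
    · intro V _ hle hπV
      refine ⟨1, algebraMap R K D, hle D, ?_, by rw [one_pow, mul_one]⟩
      have h2 : algebraMap R K D * (algebraMap R K D' * (algebraMap R K π)⁻¹ ^ N) = 1 := by
        rw [← mul_assoc, ← map_mul, hDD, map_pow, ← mul_pow, mul_inv_cancel₀ hP0, one_pow]
      rw [← eq_inv_of_mul_eq_one_right h2]
      exact V.mul_mem _ _ (hle D') (V.pow_mem hπV N)
    · rw [map_one, mul_one, zpow_zero, one_mul]
    · rw [← map_mul, hDD, map_pow, map_one, mul_one, zpow_natCast]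
    · rw [map_one, pow_zero, Units.val_one, mul_one]
  have hn : (n : ℤ) ≠ 0 := by exact_mod_cast h.thickness_ne_zero
  have h3 := (mul_eq_zero.mp hZ).resolve_left hn
  have h4 : (N : ℤ) = n * k := by
    push_cast at h3
    linarith
  exact_mod_cast h4

end Thick

section Statements

/-- `1` has order `0` on every branch. -/
theorem ordOn_one463 {R : Type*} [CommRing R] (𝔭 : Ideal R) (ϖ : R) : I6.OrdOn 𝔭 ϖ 1 0 := by
  unfold I6.OrdOn
  rw [map_one, pow_zero]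

/-- **NODE, fraction form** (`H704.I6.NodeRelFracStatement`, verbatim). -/
theorem nodeRelFrac : I6.NodeRelFracStatement := by
  intro R K _ _ _ _ _ _ _ _ 𝔭₁ 𝔭₂ π x y hnode m N hm hcop D D' hDD u _ hHor v₁ v₂ s k hv₁ hv₂ hs hk
  have := hnode.prime₁
  have := hnode.prime₂
  have : IsDiscreteValuationRing (R ⧸ 𝔭₁) := I6_isDVR₁ hnode
  have : IsDiscreteValuationRing (R ⧸ 𝔭₂) := I6_isDVR₂ hnode
  rcases Nat.eq_zero_or_pos N with rfl | hN
  · have hm1 : m = 1 := by simpa using hcop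
    subst hm1
    rw [Nat.cast_one]
    exact one_dvd _
  obtain ⟨x', y', n, h463, hx', hy'⟩ := exists_isNode463 hnode hN hDD hk
  obtain ⟨εD, hεD⟩ := ordOn_eq463 hk
  have hNnk : N = n * k :=
    h463.thickness_mul_ord hDD.mul_eq hDD.hD hDD.hD' (ε := εD) (by rw [hx']; exact hεD)
  have hπ0 := h463.pi_ne_zero
  have hdiv := hdiv_of_horDivFrac463 (K := K) hπ0 hm hHor
  obtain ⟨v, a, b, i, j, ha, hb, hab, hi, hj, hsij⟩ := hs
  have hvv : v = v₂ := valAt_unique463 h463.pi_mem_right hπ0 ⟨a, b, ha, hb, hab⟩ hv₂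
  subst hvv
  obtain ⟨a₁, b₁, ha₁, hb₁, hab₁⟩ := hv₁
  obtain ⟨εa, hεa⟩ := ordOn_eq463 hi
  obtain ⟨εb, hεb⟩ := ordOn_eq463 hj
  have key := h463.dvd_slope_right hm hdiv ha₁ hb₁ ha hb hab₁ hab (εa := εa) (εb := εb)
    (by rw [hy']; exact hεa) (by rw [hy']; exact hεb)
  have hcopn : Nat.Coprime m n :=
    (Nat.Coprime.coprime_dvd_left ⟨k, hNnk⟩ hcop).symm
  have hcop' : IsCoprime (m : ℤ) (n : ℤ) := Nat.isCoprime_iff_coprime.mpr hcopn
  have h3 : (m : ℤ) ∣ n * ((i : ℤ) - j) + v - v₁ := hcop'.dvd_of_dvd_mul_left key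
  have e : (N : ℤ) * s - (v₁ - v) * k = k * (n * ((i : ℤ) - j) + v - v₁) := by
    rw [hsij, hNnk]
    push_cast
    ring
  rw [e]
  exact Dvd.dvd.mul_left h3 _

/-- **NODE, element form** (`H704.I6.NodeRelStatement`, verbatim). -/
theorem nodeRel : I6.NodeRelStatement := by
  intro R _ _ _ _ _ 𝔭₁ 𝔭₂ π x y hnode m N hm hcop D D' hDD a c d n₁ ha hc hd had hHor s k hs hk
  have := hnode.prime₁
  have := hnode.prime₂
  have h1₂ : (1 : R) ∉ 𝔭₂ := (Ideal.ne_top_iff_one 𝔭₂).mp (Ideal.IsPrime.ne_top inferInstance)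
  have hinj : Function.Injective (algebraMap R (FractionRing R)) :=
    IsFractionRing.injective R (FractionRing R)
  have ha0 : algebraMap R (FractionRing R) a ≠ 0 := fun h0 => ha (by
    rw [hinj (by rw [h0, map_zero] : algebraMap R (FractionRing R) a = algebraMap R _ 0)]
    exact 𝔭₂.zero_mem)
  have key := nodeRelFrac R (FractionRing R) 𝔭₁ 𝔭₂ π x y hnode m N hm hcop D D' hDD
    (algebraMap R (FractionRing R) a) ha0
    ⟨a, 1, one_ne_zero, by rw [map_one, mul_one], by rw [one_pow, mul_one]; exact hHor⟩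
    (n₁ : ℤ) 0 (s : ℤ) k
    ⟨c, d, hc, hd, by rw [← map_mul, had, map_mul, map_pow, zpow_natCast]⟩
    ⟨a, 1, ha, h1₂, by rw [map_one, mul_one, zpow_zero, one_mul]⟩
    ⟨0, a, 1, s, 0, ha, h1₂, by rw [map_one, mul_one, zpow_zero, one_mul], hs,
      ordOn_one463 𝔭₂ y, by push_cast; ring⟩
    hk
  rwa [sub_zero] at key

/-- **NODE, exact form** (`H704.I6.NodeRelExactStatement`, verbatim). -/
theorem nodeRelExact : I6.NodeRelExactStatement := by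
  intro R _ _ _ _ _ 𝔭₁ 𝔭₂ π x y hnode N D D' hN hDD a c d n₁ ha hc hd had hnoh s k hs hk
  have := hnode.prime₁
  have := hnode.prime₂
  have : IsDiscreteValuationRing (R ⧸ 𝔭₁) := I6_isDVR₁ hnode
  have : IsDiscreteValuationRing (R ⧸ 𝔭₂) := I6_isDVR₂ hnode
  have h1₂ : (1 : R) ∉ 𝔭₂ := (Ideal.ne_top_iff_one 𝔭₂).mp (Ideal.IsPrime.ne_top inferInstance)
  obtain ⟨x', y', n, h463, hx', hy'⟩ := exists_isNode463 hnode hN hDD hk
  obtain ⟨εD, hεD⟩ := ordOn_eq463 hk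
  have hNnk : N = n * k :=
    h463.thickness_mul_ord hDD.mul_eq hDD.hD hDD.hD' (ε := εD) (by rw [hx']; exact hεD)
  have hπ0 := h463.pi_ne_zero
  obtain ⟨εa, hεa⟩ := ordOn_eq463 hs
  have hZ : (n : ℤ) * (n * ((s : ℤ) - (0 : ℕ)) + (0 : ℤ) - (n₁ : ℤ)) = 0 := by
    apply eq_zero_of_forall_dvd463
    intro m hm
    have hHF : I6.HorDivFrac (FractionRing R) π m (algebraMap R (FractionRing R) a) :=
      ⟨a, 1, one_ne_zero, by rw [map_one, mul_one], by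
        rw [one_pow, mul_one]
        exact fun 𝔓 h𝔓 ha𝔓 hπ𝔓 => absurd (hnoh 𝔓 h𝔓 ha𝔓) hπ𝔓⟩
    have hdiv := hdiv_of_horDivFrac463 (K := FractionRing R) hπ0 hm hHF
    refine h463.dvd_slope_right (K := FractionRing R) hm hdiv hc hd ha h1₂ ?_ ?_ (εa := εa)
      (εb := 1) (by rw [hy']; exact hεa) ?_
    · rw [← map_mul, had, map_mul, map_pow, zpow_natCast]
    · rw [map_one, mul_one, zpow_zero, one_mul]
    · rw [map_one, pow_zero, Units.val_one, mul_one]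
  have hn : (n : ℤ) ≠ 0 := by exact_mod_cast h463.thickness_ne_zero
  have h3 := (mul_eq_zero.mp hZ).resolve_left hn
  have h4 : (n : ℤ) * s = n₁ := by
    push_cast at h3
    linarith
  have h5 : n * s = n₁ := by exact_mod_cast h4
  rw [hNnk, ← h5]
  ring

end Statements

end Fermat.Agent.Ribet.H463
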