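import Fermat.Agent.A2.H609.Horizontal

/-!
# RIBET / WALL-p, leaf CT2 = P-NODE: the node-slope relation (core, ring form)

`R` a noetherian local integrally closed domain, `𝔭₁ 𝔭₂` primes with `𝔭₁ ⊓ 𝔭₂ = (π)`,
`𝔭₁ ⊔ 𝔭₂ = 𝔪`, `R ⧸ 𝔭ᵢ` discrete valuation rings, `x ∈ 𝔭₂` a uniformiser of the branch `R ⧸ 𝔭₁`,
`y ∈ 𝔭₁` a uniformiser of the branch `R ⧸ 𝔭₂`, and `x y = ε π ^ N` (a node of thickness `N`;
no completion, no hypothesis on the residue characteristic): `IsNode463 𝔭₁ 𝔭₂ π x y N`.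

Core statement (`IsNode463.dvd_thickness_mul_ord_right`, `..._left`): if `u ∉ 𝔭₁ ∪ 𝔭₂` has
`m ∣ ord_𝔓 u` at every horizontal prime `𝔓` (hypothesis (H1) in the form of `A2.H609`), then
`m ∣ N * ord (u mod 𝔭ᵢ)` for both branches.  In particular for `gcd(m, N) = 1` the orders of `u`
on the two branches at the node are divisible by `m`.

Proof: the multiplicity identity `ℓ(R/(u, x)) = m • ℓ(R/(I₁ + (x)))` of `A2.H609` applied to the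
pair `(u, x)`, and `ℓ(R/(u, x)) = N * ord (u mod 𝔭₂)` by the filtration `(u, x, π ^ i)`.
Mathlib + `A2.H609`.
-/

set_option autoImplicit false

namespace Fermat.Agent.Ribet.H463

open Ideal Fermat.Agent.A2.H609

variable {R : Type*} [CommRing R] [IsLocalRing R]

/-- A node of thickness `N`: two branches `𝔭₁`, `𝔭₂` through the closed point, `(π) = 𝔭₁ ⊓ 𝔭₂`,
`x ∈ 𝔭₂` a uniformiser along `𝔭₁`, `y ∈ 𝔭₁` a uniformiser along `𝔭₂`, `x y = unit * π ^ N`. -/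
structure IsNode463 (𝔭₁ 𝔭₂ : Ideal R) (π x y : R) (N : ℕ) : Prop where
  inf_eq : 𝔭₁ ⊓ 𝔭₂ = Ideal.span {π}
  sup_eq : 𝔭₁ ⊔ 𝔭₂ = IsLocalRing.maximalIdeal R
  x_mem : x ∈ 𝔭₂
  x_irr : Irreducible (Ideal.Quotient.mk 𝔭₁ x)
  y_mem : y ∈ 𝔭₁
  y_irr : Irreducible (Ideal.Quotient.mk 𝔭₂ y)
  mul_eq : ∃ ε : Rˣ, x * y = ε * π ^ N

namespace IsNode463

section Basic

variable {𝔭₁ 𝔭₂ : Ideal R} {π x y : R} {N : ℕ}

theorem symm (h : IsNode463 𝔭₁ 𝔭₂ π x y N) : IsNode463 𝔭₂ 𝔭₁ π y x N where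
  inf_eq := by rw [inf_comm]; exact h.inf_eq
  sup_eq := by rw [sup_comm]; exact h.sup_eq
  x_mem := h.y_mem
  x_irr := h.y_irr
  y_mem := h.x_mem
  y_irr := h.x_irr
  mul_eq := by
    obtain ⟨ε, hε⟩ := h.mul_eq
    exact ⟨ε, by rw [mul_comm]; exact hε⟩

theorem pi_mem_left (h : IsNode463 𝔭₁ 𝔭₂ π x y N) : π ∈ 𝔭₁ :=
  (inf_le_left : 𝔭₁ ⊓ 𝔭₂ ≤ 𝔭₁) (h.inf_eq ▸ Ideal.mem_span_singleton_self π)

theorem pi_mem_right (h : IsNode463 𝔭₁ 𝔭₂ π x y N) : π ∈ 𝔭₂ :=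
  (inf_le_right : 𝔭₁ ⊓ 𝔭₂ ≤ 𝔭₂) (h.inf_eq ▸ Ideal.mem_span_singleton_self π)

theorem x_notMem (h : IsNode463 𝔭₁ 𝔭₂ π x y N) : x ∉ 𝔭₁ := fun hx =>
  h.x_irr.ne_zero (Ideal.Quotient.eq_zero_iff_mem.mpr hx)

theorem y_notMem (h : IsNode463 𝔭₁ 𝔭₂ π x y N) : y ∉ 𝔭₂ := fun hy =>
  h.y_irr.ne_zero (Ideal.Quotient.eq_zero_iff_mem.mpr hy)

theorem left_le (h : IsNode463 𝔭₁ 𝔭₂ π x y N) : 𝔭₁ ≤ IsLocalRing.maximalIdeal R :=
  h.sup_eq ▸ le_sup_left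

theorem right_le (h : IsNode463 𝔭₁ 𝔭₂ π x y N) : 𝔭₂ ≤ IsLocalRing.maximalIdeal R :=
  h.sup_eq ▸ le_sup_right

theorem exists_eq_mul_pi (h : IsNode463 𝔭₁ 𝔭₂ π x y N) {z : R} (h1 : z ∈ 𝔭₁) (h2 : z ∈ 𝔭₂) :
    ∃ c : R, z = c * π := by
  have hz : z ∈ 𝔭₁ ⊓ 𝔭₂ := ⟨h1, h2⟩
  rw [h.inf_eq] at hz
  exact (Ideal.mem_span_singleton'.mp hz).imp fun c hc => hc.symm

theorem thickness_ne_zero (h : IsNode463 𝔭₁ 𝔭₂ π x y N) : N ≠ 0 := by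
  rintro rfl
  obtain ⟨ε, hε⟩ := h.mul_eq
  rw [pow_zero, mul_one] at hε
  have hxu : IsUnit x := isUnit_of_mul_isUnit_left (hε ▸ ε.isUnit)
  exact (IsLocalRing.mem_maximalIdeal x).mp (h.right_le h.x_mem) hxu

theorem pi_ne_zero [IsDomain R] (h : IsNode463 𝔭₁ 𝔭₂ π x y N) : π ≠ 0 := by
  rintro rfl
  obtain ⟨ε, hε⟩ := h.mul_eq
  rw [zero_pow h.thickness_ne_zero, mul_zero] at hε
  rcases mul_eq_zero.mp hε with h0 | h0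
  · exact h.x_notMem (h0 ▸ 𝔭₁.zero_mem)
  · exact h.y_notMem (h0 ▸ 𝔭₂.zero_mem)

theorem x_ne_zero (h : IsNode463 𝔭₁ 𝔭₂ π x y N) : x ≠ 0 := fun h0 =>
  h.x_notMem (h0 ▸ 𝔭₁.zero_mem)

theorem y_ne_zero (h : IsNode463 𝔭₁ 𝔭₂ π x y N) : y ≠ 0 := fun h0 =>
  h.y_notMem (h0 ▸ 𝔭₂.zero_mem)

/-- `π ^ N ∈ (x)`. -/
theorem pi_pow_eq (h : IsNode463 𝔭₁ 𝔭₂ π x y N) : ∃ c : R, π ^ N = c * x := by
  obtain ⟨ε, hε⟩ := h.mul_eq
  refine ⟨(ε⁻¹ : Rˣ) * y, ?_⟩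
  calc π ^ N = (ε⁻¹ : Rˣ) * (ε * π ^ N) := by rw [← mul_assoc, Units.inv_mul, one_mul]
    _ = (ε⁻¹ : Rˣ) * y * x := by rw [← hε]; ring

/-- `𝔭₂ = (x, π)`. -/
theorem right_eq [𝔭₁.IsPrime] [IsDiscreteValuationRing (R ⧸ 𝔭₁)]
    (h : IsNode463 𝔭₁ 𝔭₂ π x y N) : 𝔭₂ = Ideal.span {x, π} := by
  have hspan : Ideal.span {x, π} = Ideal.span {x} ⊔ Ideal.span {π} := by
    rw [← Ideal.span_union]
    rfl
  rw [hspan]
  refine le_antisymm ?_ (sup_le ((Ideal.span_singleton_le_iff_mem _).mpr h.x_mem)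
    ((Ideal.span_singleton_le_iff_mem _).mpr h.pi_mem_right))
  rw [← h.inf_eq]
  exact le_span_sup_inf 𝔭₁ 𝔭₂ h.x_mem h.x_irr h.right_le

/-- `𝔭₁ = (y, π)`. -/
theorem left_eq [𝔭₂.IsPrime] [IsDiscreteValuationRing (R ⧸ 𝔭₂)]
    (h : IsNode463 𝔭₁ 𝔭₂ π x y N) : 𝔭₁ = Ideal.span {y, π} :=
  h.symm.right_eq

end Basic

section Regular

variable {𝔭₁ 𝔭₂ : Ideal R} [𝔭₁.IsPrime] [𝔭₂.IsPrime] {π x y : R} {N : ℕ}

/-- `u ∉ 𝔭₁ ∪ 𝔭₂` is regular modulo `π`. -/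
theorem pi_dvd_of_dvd_mul (h : IsNode463 𝔭₁ 𝔭₂ π x y N) {u : R} (hu₁ : u ∉ 𝔭₁) (hu₂ : u ∉ 𝔭₂)
    {z : R} (hz : π ∣ u * z) : π ∣ z := by
  have h1 : u * z ∈ 𝔭₁ ⊓ 𝔭₂ := by
    rw [h.inf_eq]
    exact Ideal.mem_span_singleton.mpr hz
  have h2 : z ∈ 𝔭₁ := (Ideal.IsPrime.mem_or_mem inferInstance h1.1).resolve_left hu₁
  have h3 : z ∈ 𝔭₂ := (Ideal.IsPrime.mem_or_mem inferInstance h1.2).resolve_left hu₂
  obtain ⟨c, hc⟩ := h.exists_eq_mul_pi h2 h3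
  exact ⟨c, by rw [hc, mul_comm]⟩

/-- `u ∉ 𝔭₁ ∪ 𝔭₂` is regular modulo `π ^ k`. -/
theorem pi_pow_dvd_of_dvd_mul [IsDomain R] (h : IsNode463 𝔭₁ 𝔭₂ π x y N) {u : R}
    (hu₁ : u ∉ 𝔭₁) (hu₂ : u ∉ 𝔭₂) (k : ℕ) : ∀ {z : R}, π ^ k ∣ u * z → π ^ k ∣ z := by
  induction k with
  | zero =>
    intro z _
    rw [pow_zero]
    exact one_dvd z
  | succ k ih =>
    intro z hz
    have h1 : π ∣ u * z := Dvd.dvd.trans (Dvd.intro_left (π ^ k) (pow_succ π k).symm) hz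
    obtain ⟨z', rfl⟩ := h.pi_dvd_of_dvd_mul hu₁ hu₂ h1
    have h2 : π * π ^ k ∣ π * (u * z') := by
      rw [← pow_succ']
      have : π * (u * z') = u * (π * z') := by ring
      rw [this]
      exact hz
    have h3 : π ^ k ∣ u * z' := (mul_dvd_mul_iff_left h.pi_ne_zero).mp h2
    rw [pow_succ']
    exact mul_dvd_mul_left π (ih h3)

/-- `u ∉ 𝔭₁ ∪ 𝔭₂` is regular modulo `x`. -/
theorem x_dvd_of_dvd_mul [IsDomain R] (h : IsNode463 𝔭₁ 𝔭₂ π x y N) {u : R}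
    (hu₁ : u ∉ 𝔭₁) (hu₂ : u ∉ 𝔭₂) {z : R} (hz : x ∣ u * z) : x ∣ z := by
  obtain ⟨ε, hε⟩ := h.mul_eq
  obtain ⟨c, hc⟩ := hz
  have h1 : π ^ N ∣ u * (z * y) := by
    refine ⟨ε * c, ?_⟩
    calc u * (z * y) = (u * z) * y := by ring
      _ = x * c * y := by rw [hc]
      _ = (x * y) * c := by ring
      _ = π ^ N * (ε * c) := by rw [hε]; ring
  obtain ⟨d, hd⟩ := h.pi_pow_dvd_of_dvd_mul hu₁ hu₂ N h1
  refine ⟨(ε⁻¹ : Rˣ) * d, ?_⟩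
  apply mul_right_cancel₀ h.y_ne_zero
  calc z * y = π ^ N * d := hd
    _ = (ε⁻¹ : Rˣ) * (ε * π ^ N) * d := by rw [← mul_assoc, Units.inv_mul, one_mul]
    _ = x * ((ε⁻¹ : Rˣ) * d) * y := by rw [← hε]; ring

omit [𝔭₁.IsPrime] in
/-- (L1) `π ^ i w ∈ (x)`, `i < N` forces `w ∈ 𝔭₂`. -/
theorem mem_right_of_pow_mul_eq [IsDomain R] (h : IsNode463 𝔭₁ 𝔭₂ π x y N) {i : ℕ}
    (hi : i < N) {w d : R} (hw : π ^ i * w = d * x) : w ∈ 𝔭₂ := by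
  obtain ⟨ε, hε⟩ := h.mul_eq
  obtain ⟨j, rfl⟩ : ∃ j, N = i + (j + 1) := ⟨N - i - 1, by omega⟩
  have h1 : π ^ i * (w * y) = π ^ i * (d * ε * π ^ j * π) := by
    calc π ^ i * (w * y) = (π ^ i * w) * y := by ring
      _ = d * (x * y) := by rw [hw]; ring
      _ = π ^ i * (d * ε * π ^ j * π) := by rw [hε, pow_add, pow_succ]; ring
  have h2 : w * y = d * ε * π ^ j * π := mul_left_cancel₀ (pow_ne_zero i h.pi_ne_zero) h1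
  have h3 : w * y ∈ 𝔭₂ := by
    rw [h2]
    exact 𝔭₂.mul_mem_left _ h.pi_mem_right
  exact (Ideal.IsPrime.mem_or_mem inferInstance h3).resolve_right h.y_notMem

end Regular

section Length

variable {𝔭₁ 𝔭₂ : Ideal R} [𝔭₁.IsPrime] [𝔭₂.IsPrime]
  [IsDiscreteValuationRing (R ⧸ 𝔭₁)] [IsDiscreteValuationRing (R ⧸ 𝔭₂)] {π x y : R} {N : ℕ}

omit [IsDiscreteValuationRing (R ⧸ 𝔭₂)] in
/-- (L2) `u ∉ 𝔭₂` is regular modulo `(x, π ^ i)`, `i ≤ N`. -/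
theorem mem_span_pair_of_mul_mem [IsDomain R] (h : IsNode463 𝔭₁ 𝔭₂ π x y N) {u : R}
    (hu₂ : u ∉ 𝔭₂) (i : ℕ) (hi : i ≤ N) :
    ∀ a : R, a * u ∈ Ideal.span {x, π ^ i} → a ∈ Ideal.span {x, π ^ i} := by
  induction i with
  | zero =>
    intro a _
    rw [pow_zero]
    exact Ideal.mem_span_pair.mpr ⟨0, a, by ring⟩
  | succ i ih =>
    intro a ha
    obtain ⟨e, f, hef⟩ := Ideal.mem_span_pair.mp ha
    have ha' : a * u ∈ Ideal.span {x, π ^ i} :=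
      Ideal.mem_span_pair.mpr ⟨e, f * π, by rw [← hef, pow_succ]; ring⟩
    obtain ⟨a', a'', haa⟩ := Ideal.mem_span_pair.mp (ih (by omega) a ha')
    have h1 : π ^ i * (a'' * u - f * π) = (e - a' * u) * x := by
      have h2 : a * u = a' * x * u + a'' * π ^ i * u := by rw [← haa]; ring
      rw [pow_succ] at hef
      linear_combination -hef - h2
    have h3 : a'' * u - f * π ∈ 𝔭₂ := h.mem_right_of_pow_mul_eq (by omega) h1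
    have h4 : a'' * u ∈ 𝔭₂ := by
      have : a'' * u = (a'' * u - f * π) + f * π := by ring
      rw [this]
      exact 𝔭₂.add_mem h3 (𝔭₂.mul_mem_left _ h.pi_mem_right)
    have h5 : a'' ∈ 𝔭₂ := (Ideal.IsPrime.mem_or_mem inferInstance h4).resolve_right hu₂
    rw [h.right_eq] at h5
    obtain ⟨g, k, hgk⟩ := Ideal.mem_span_pair.mp h5
    refine Ideal.mem_span_pair.mpr ⟨a' + g * π ^ i, k, ?_⟩
    rw [← haa, ← hgk, pow_succ]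
    ring

omit [IsDiscreteValuationRing (R ⧸ 𝔭₂)] in
/-- One step of the filtration `(u, x, π ^ i)`: multiplication by `π ^ i` identifies
`R / (u, x, π)` with `(u, x, π ^ i) / (u, x, π ^ (i + 1))` for `i < N`. -/
theorem relLen_step [IsDomain R] (h : IsNode463 𝔭₁ 𝔭₂ π x y N) {u : R} (hu₂ : u ∉ 𝔭₂)
    {i : ℕ} (hi : i < N) :
    relLen (Ideal.span {u, x, π ^ (i + 1)}) (Ideal.span {u, x, π ^ i}) =
      relLen (Ideal.span {u, x, π}) (⊤ : Ideal R) := by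
  symm
  refine relLen_eq_of_map (LinearMap.mulLeft R (π ^ i)) ?_ ?_ ?_ ?_
  · intro z _
    rw [LinearMap.mulLeft_apply]
    exact Ideal.mul_mem_right _ _ (Ideal.subset_span (by simp))
  · intro z hz
    rw [LinearMap.mulLeft_apply]
    obtain ⟨a, b, c, rfl⟩ := Submodule.mem_span_triple.mp hz
    refine Submodule.mem_span_triple.mpr ⟨π ^ i * a, π ^ i * b, c, ?_⟩
    simp only [smul_eq_mul]
    rw [pow_succ]
    ring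
  · intro z _ hz
    rw [LinearMap.mulLeft_apply] at hz
    obtain ⟨a, b, c, habc⟩ := Submodule.mem_span_triple.mp hz
    simp only [smul_eq_mul] at habc
    -- `π ^ i * (z - c π) = a u + b x`
    have h1 : a * u ∈ Ideal.span {x, π ^ i} :=
      Ideal.mem_span_pair.mpr ⟨-b, z - c * π, by rw [pow_succ] at habc; linear_combination -habc⟩
    obtain ⟨a', a'', haa⟩ := Ideal.mem_span_pair.mp (h.mem_span_pair_of_mul_mem hu₂ i hi.le a h1)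
    have h2 : π ^ i * (z - c * π - a'' * u) = (a' * u + b) * x := by
      rw [pow_succ] at habc
      have h3 : a * u = a' * x * u + a'' * π ^ i * u := by rw [← haa]; ring
      linear_combination -habc + h3
    have h4 : z - c * π - a'' * u ∈ 𝔭₂ := h.mem_right_of_pow_mul_eq hi h2
    rw [h.right_eq] at h4
    obtain ⟨e, f, hef⟩ := Ideal.mem_span_pair.mp h4
    refine Submodule.mem_span_triple.mpr ⟨a'', e, f + c, ?_⟩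
    simp only [smul_eq_mul]
    linear_combination hef
  · intro w hw
    obtain ⟨a, b, c, rfl⟩ := Submodule.mem_span_triple.mp hw
    refine ⟨c, trivial, ?_⟩
    rw [LinearMap.mulLeft_apply]
    refine Submodule.mem_span_triple.mpr ⟨a, b, 0, ?_⟩
    simp only [smul_eq_mul]
    ring

omit [IsDiscreteValuationRing (R ⧸ 𝔭₂)] in
/-- The filtration `(u, x, π ^ i)`, `i ≤ N`: `ℓ(R / (u, x, π ^ i)) = i • ℓ(R / (u, x, π))`. -/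
theorem relLen_chain [IsDomain R] (h : IsNode463 𝔭₁ 𝔭₂ π x y N) {u : R} (hu₂ : u ∉ 𝔭₂)
    (i : ℕ) (hi : i ≤ N) :
    relLen (Ideal.span {u, x, π ^ i}) (⊤ : Ideal R) =
      i • relLen (Ideal.span {u, x, π}) (⊤ : Ideal R) := by
  induction i with
  | zero =>
    have htop : Ideal.span {u, x, π ^ 0} = (⊤ : Ideal R) := by
      rw [Ideal.eq_top_iff_one]
      exact Ideal.subset_span (by simp)
    rw [htop, relLen_self, zero_smul]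
  | succ i ih =>
    have hle : Ideal.span {u, x, π ^ (i + 1)} ≤ Ideal.span {u, x, π ^ i} := by
      rw [Ideal.span_le]
      intro z hz
      simp only [Set.mem_insert_iff, Set.mem_singleton_iff] at hz
      rcases hz with rfl | rfl | rfl
      · exact Ideal.subset_span (by simp)
      · exact Ideal.subset_span (by simp)
      · rw [pow_succ]
        exact Ideal.mul_mem_right _ _ (Ideal.subset_span (by simp))
    rw [relLen_add hle le_top, h.relLen_step hu₂ (by omega), ih (by omega), succ_nsmul, add_comm]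

omit [𝔭₁.IsPrime] [𝔭₂.IsPrime] [IsDiscreteValuationRing (R ⧸ 𝔭₁)]
  [IsDiscreteValuationRing (R ⧸ 𝔭₂)] in
/-- `(u, x, π ^ N) = (u, x)`. -/
theorem span_triple_eq (h : IsNode463 𝔭₁ 𝔭₂ π x y N) (u : R) :
    Ideal.span {u, x, π ^ N} = Ideal.span {u, x} := by
  obtain ⟨c, hc⟩ := h.pi_pow_eq
  apply le_antisymm
  · rw [Ideal.span_le]
    intro z hz
    simp only [Set.mem_insert_iff, Set.mem_singleton_iff] at hz
    rcases hz with rfl | rfl | rfl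
    · exact Ideal.subset_span (by simp)
    · exact Ideal.subset_span (by simp)
    · rw [hc]
      exact Ideal.mul_mem_left _ _ (Ideal.subset_span (by simp))
  · exact Ideal.span_mono (by
      intro z hz
      simp only [Set.mem_insert_iff, Set.mem_singleton_iff] at hz ⊢
      rcases hz with rfl | rfl
      · exact Or.inl rfl
      · exact Or.inr (Or.inl rfl))

/-- `ℓ(R / (u, x, π)) = ord (u mod 𝔭₂)`. -/
theorem relLen_span_triple (h : IsNode463 𝔭₁ 𝔭₂ π x y N) {u : R} {n : ℕ}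
    {ε : (R ⧸ 𝔭₂)ˣ} (hu : Ideal.Quotient.mk 𝔭₂ u = ε * (Ideal.Quotient.mk 𝔭₂ y) ^ n) :
    relLen (Ideal.span {u, x, π}) (⊤ : Ideal R) = n := by
  have hI : Ideal.span {u, x, π} = Ideal.span {y ^ n} ⊔ 𝔭₂ := by
    have h2 : 𝔭₂ ≤ Ideal.span {u, x, π} := by
      rw [h.right_eq]
      exact Ideal.span_mono (by
        intro z hz
        simp only [Set.mem_insert_iff, Set.mem_singleton_iff] at hz ⊢
        exact Or.inr hz)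
    apply le_antisymm
    · rw [Ideal.span_le]
      intro z hz
      simp only [Set.mem_insert_iff, Set.mem_singleton_iff] at hz
      rcases hz with rfl | rfl | rfl
      · obtain ⟨e, he⟩ := Ideal.Quotient.mk_surjective (ε : R ⧸ 𝔭₂)
        have h3 : z - e * y ^ n ∈ 𝔭₂ := by
          rw [← Ideal.Quotient.eq, hu, map_mul, map_pow, he]
        have h4 : z = y ^ n * e + (z - e * y ^ n) := by ring
        rw [h4]
        exact Ideal.add_mem _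
          (Ideal.mem_sup_left (Ideal.mem_span_singleton.mpr (Dvd.intro e rfl)))
          (Ideal.mem_sup_right h3)
      · exact Ideal.mem_sup_right h.x_mem
      · exact Ideal.mem_sup_right h.pi_mem_right
    · refine sup_le ?_ h2
      rw [Ideal.span_singleton_le_iff_mem]
      obtain ⟨e, he⟩ := exists_pow_sub_mul_mem 𝔭₂ hu
      have h4 : y ^ n = (y ^ n - u * e) + e * u := by ring
      rw [h4]
      exact Ideal.add_mem _ (h2 he) (Ideal.mul_mem_left _ _ (Ideal.subset_span (by simp)))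
  rw [hI]
  exact relLen_branch_pow 𝔭₂ h.y_irr n

/-- **Length of the intersection with the thick branch**: `ℓ(R / (u, x)) = N * ord (u mod 𝔭₂)`. -/
theorem relLen_span_pair [IsDomain R] (h : IsNode463 𝔭₁ 𝔭₂ π x y N) {u : R} (hu₂ : u ∉ 𝔭₂)
    {n : ℕ} {ε : (R ⧸ 𝔭₂)ˣ}
    (hu : Ideal.Quotient.mk 𝔭₂ u = ε * (Ideal.Quotient.mk 𝔭₂ y) ^ n) :
    relLen (Ideal.span {u, x}) (⊤ : Ideal R) = ((N * n : ℕ) : ℕ∞) := by
  rw [← h.span_triple_eq u, h.relLen_chain hu₂ N le_rfl, h.relLen_span_triple hu]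
  rw [nsmul_eq_mul]
  push_cast
  rfl

end Length

section Main

variable [IsDomain R] [IsIntegrallyClosed R] [IsNoetherianRing R]
variable {𝔭₁ 𝔭₂ : Ideal R} [𝔭₁.IsPrime] [𝔭₂.IsPrime]
  [IsDiscreteValuationRing (R ⧸ 𝔭₁)] [IsDiscreteValuationRing (R ⧸ 𝔭₂)] {π x y : R} {N : ℕ}

omit [IsDomain R] [IsIntegrallyClosed R] [IsNoetherianRing R] [𝔭₂.IsPrime]
  [IsDiscreteValuationRing (R ⧸ 𝔭₂)] in
/-- A prime containing `𝔭₁` and `u ∉ 𝔭₁` is the maximal ideal. -/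
theorem eq_maximalIdeal_of_left_le (h : IsNode463 𝔭₁ 𝔭₂ π x y N) {u : R} (hu₁ : u ∉ 𝔭₁)
    {𝔮 : Ideal R} (h𝔮 : 𝔮.IsPrime) (hu𝔮 : u ∈ 𝔮) (hle : 𝔭₁ ≤ 𝔮) :
    𝔮 = IsLocalRing.maximalIdeal R := by
  refine le_antisymm (IsLocalRing.le_maximalIdeal h𝔮.ne_top) ?_
  rw [← h.sup_eq]
  have hu0 : Ideal.Quotient.mk 𝔭₁ u ≠ 0 := by
    rwa [Ne, Ideal.Quotient.eq_zero_iff_mem]
  obtain ⟨n, ε, hε⟩ := IsDiscreteValuationRing.eq_unit_mul_pow_irreducible hu0 h.x_irr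
  have hx𝔮 : x ∈ 𝔮 := mem_of_le_of_mk_eq 𝔭₁ hε h𝔮 hle hu𝔮
  refine sup_le hle ?_
  rw [h.right_eq, Ideal.span_le]
  intro z hz
  simp only [Set.mem_insert_iff, Set.mem_singleton_iff] at hz
  rcases hz with rfl | rfl
  · exact hx𝔮
  · exact hle h.pi_mem_left

omit [IsDomain R] [IsIntegrallyClosed R] [IsNoetherianRing R] in
/-- The maximal ideal is the only prime containing `π` and `u ∉ 𝔭₁ ∪ 𝔭₂`. -/
theorem eq_maximalIdeal_of_mem (h : IsNode463 𝔭₁ 𝔭₂ π x y N) {u : R} (hu₁ : u ∉ 𝔭₁)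
    (hu₂ : u ∉ 𝔭₂) {𝔮 : Ideal R} (h𝔮 : 𝔮.IsPrime) (hu𝔮 : u ∈ 𝔮) (hπ𝔮 : π ∈ 𝔮) :
    𝔮 = IsLocalRing.maximalIdeal R := by
  have hle : 𝔭₁ ⊓ 𝔭₂ ≤ 𝔮 := by
    rw [h.inf_eq, Ideal.span_singleton_le_iff_mem]
    exact hπ𝔮
  rcases h𝔮.inf_le.mp hle with h1 | h2
  · exact h.eq_maximalIdeal_of_left_le hu₁ h𝔮 hu𝔮 h1
  · exact h.symm.eq_maximalIdeal_of_left_le hu₂ h𝔮 hu𝔮 h2

/-- **Node-slope relation, core form (branch `𝔭₂`).**  If `u ∉ 𝔭₁ ∪ 𝔭₂` has `m ∣ ord_𝔓 u` at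
every horizontal prime, then `m ∣ N * ord (u mod 𝔭₂)`. -/
theorem dvd_thickness_mul_ord_right (h : IsNode463 𝔭₁ 𝔭₂ π x y N) {u : R} {m : ℕ}
    (hm : m ≠ 0) (hu₁ : u ∉ 𝔭₁) (hu₂ : u ∉ 𝔭₂)
    (H1 : ∀ 𝔓 ∈ (Ideal.span {u}).minimalPrimes, π ∉ 𝔓 → ∃ f r : R, r ∉ 𝔓 ∧ f ^ m = u * r)
    {n : ℕ} {ε : (R ⧸ 𝔭₂)ˣ}
    (hu : Ideal.Quotient.mk 𝔭₂ u = ε * (Ideal.Quotient.mk 𝔭₂ y) ^ n) :
    m ∣ N * n := by
  have hu0 : u ≠ 0 := fun h0 => hu₁ (h0 ▸ 𝔭₁.zero_mem)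
  have hx𝔪 : x ∈ IsLocalRing.maximalIdeal R := h.right_le h.x_mem
  have huπ : ∀ 𝔮 : Ideal R, 𝔮.IsPrime → u ∈ 𝔮 → π ∈ 𝔮 → 𝔮 = IsLocalRing.maximalIdeal R :=
    fun 𝔮 h𝔮 hu𝔮 hπ𝔮 => h.eq_maximalIdeal_of_mem hu₁ hu₂ h𝔮 hu𝔮 hπ𝔮
  have hπ_of_x : ∀ 𝔮 : Ideal R, 𝔮.IsPrime → x ∈ 𝔮 → π ∈ 𝔮 := by
    intro 𝔮 h𝔮 hx𝔮
    obtain ⟨ε', hε'⟩ := h.mul_eq
    have h1 : (ε' : R) * π ^ N ∈ 𝔮 := hε' ▸ 𝔮.mul_mem_right _ hx𝔮
    rcases h𝔮.mem_or_mem h1 with h2 | h2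
    · exact absurd (𝔮.eq_top_of_isUnit_mem h2 ε'.isUnit) h𝔮.ne_top
    · exact h𝔮.mem_of_pow_mem N h2
  have hux : ∀ 𝔮 : Ideal R, 𝔮.IsPrime → u ∈ 𝔮 → x ∈ 𝔮 → 𝔮 = IsLocalRing.maximalIdeal R :=
    fun 𝔮 h𝔮 hu𝔮 hx𝔮 => huπ 𝔮 h𝔮 hu𝔮 (hπ_of_x 𝔮 h𝔮 hx𝔮)
  have H1x : ∀ 𝔓 : Ideal R, 𝔓.IsPrime → u ∈ 𝔓 → x ∉ 𝔓 →
      ∃ f r : R, r ∉ 𝔓 ∧ f ^ m = u * r := by
    intro 𝔓 h𝔓 hu𝔓 hx𝔓
    have hπ𝔓 : π ∉ 𝔓 := fun hπ => hx𝔓 (by rw [huπ 𝔓 h𝔓 hu𝔓 hπ]; exact hx𝔪)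
    exact H1 𝔓 (mem_minimalPrimes_of_mem_of_notMem hu0 (h.left_le h.pi_mem_left) huπ h𝔓
      hu𝔓 hπ𝔓) hπ𝔓
  obtain ⟨t, r, k, ht, hk⟩ := exists_generator hm hu0 hx𝔪 hux H1x
  have hlen := h.relLen_span_pair hu₂ hu
  have hfin : relLen (Ideal.span {u, x}) (⊤ : Ideal R) ≠ ⊤ := by
    rw [hlen]
    exact ENat.natCast_ne_top _
  have hmul := relLen_span_pair_eq_nsmul (hm := hm) hu0 h.x_ne_zero
    (fun z hz => h.x_dvd_of_dvd_mul hu₁ hu₂ hz) ht hk hfin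
  rw [hlen, nsmul_eq_mul] at hmul
  rcases eq_or_ne (relLen (rootIdeal u m hm 1 ⊔ Ideal.span {x}) (⊤ : Ideal R)) ⊤ with hL | hL
  · rw [hL, ENat.mul_top (Nat.cast_ne_zero.mpr hm)] at hmul
    exact absurd hmul (ENat.natCast_ne_top _)
  · lift relLen (rootIdeal u m hm 1 ⊔ Ideal.span {x}) (⊤ : Ideal R) to ℕ using hL with l
    exact ⟨l, by exact_mod_cast hmul⟩

/-- **Node-slope relation, core form (branch `𝔭₁`).** -/
theorem dvd_thickness_mul_ord_left (h : IsNode463 𝔭₁ 𝔭₂ π x y N) {u : R} {m : ℕ}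
    (hm : m ≠ 0) (hu₁ : u ∉ 𝔭₁) (hu₂ : u ∉ 𝔭₂)
    (H1 : ∀ 𝔓 ∈ (Ideal.span {u}).minimalPrimes, π ∉ 𝔓 → ∃ f r : R, r ∉ 𝔓 ∧ f ^ m = u * r)
    {n : ℕ} {ε : (R ⧸ 𝔭₁)ˣ}
    (hu : Ideal.Quotient.mk 𝔭₁ u = ε * (Ideal.Quotient.mk 𝔭₁ x) ^ n) :
    m ∣ N * n :=
  h.symm.dvd_thickness_mul_ord_right hm hu₂ hu₁ H1 hu

end Main

end IsNode463

end Fermat.Agent.Ribet.H463
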