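import Fermat.Agent.Ribet.H463.NodeSlope
import Fermat.Agent.A2.H609.ChartPrep

/-!
# RIBET / WALL-p, leaf CT2 = P-NODE: the node-slope relation (fraction field form)

Setting of `NodeSlope.lean`: `IsNode463 𝔭₁ 𝔭₂ π x y N` in a noetherian local integrally closed
domain `R` with fraction field `K` (`x` a uniformiser along `𝔭₁`, `v_{𝔭₂}(x) = N`;
`y` a uniformiser along `𝔭₂`, `v_{𝔭₁}(y) = N`; `v_{𝔭ᵢ}(π) = 1`).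

Let `u ∈ Kˣ` with `m ∣ ord_V u` at every discrete valuation ring `V ⊇ R[1/π]` of `K`
(horizontal valuations), written on the two branches as

  `u b₁ = π ^ k₁ a₁`, `a₁, b₁ ∉ 𝔭₁`    (so `v_{𝔭₁}(u) = k₁`),
  `u b₂ = π ^ k₂ a₂`, `a₂, b₂ ∉ 𝔭₂`    (so `v_{𝔭₂}(u) = k₂`),

and let `α = ord (a₁ mod 𝔭₁)`, `β = ord (b₁ mod 𝔭₁)`, so that `α - β` is the order at the node of
the reduction of `u π ^ (-k₁)` along the branch `𝔭₁` (the *slope* of `u` at the node).  Then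

  `m ∣ N * (N * (α - β) + k₁ - k₂)`,

and if `m` is prime to the thickness `N`:  `v_{𝔭₂}(u) - v_{𝔭₁}(u) ≡ N * slope  (mod m)`.
-/

set_option autoImplicit false

namespace Fermat.Agent.Ribet.H463

open Ideal Fermat.Agent.A2.H609 IsDiscreteValuationRing

namespace IsNode463

variable {R : Type*} [CommRing R] [IsLocalRing R] [IsDomain R]
variable {K : Type*} [Field K] [Algebra R K] [IsFractionRing R K]
variable {𝔭₁ 𝔭₂ : Ideal R} {π x y : R} {N : ℕ}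

/-- `x` is a unit at every valuation ring containing `R[1/π]`. -/
theorem inv_x_mem (h : IsNode463 𝔭₁ 𝔭₂ π x y N) (V : ValuationSubring K)
    (hR : ∀ r : R, algebraMap R K r ∈ V) (hπ : (algebraMap R K π)⁻¹ ∈ V) :
    (algebraMap R K x)⁻¹ ∈ V := by
  obtain ⟨ε, hε⟩ := h.mul_eq
  have hinj : Function.Injective (algebraMap R K) := IsFractionRing.injective R K
  have hπ0 : algebraMap R K π ≠ 0 := fun h0 =>
    h.pi_ne_zero (hinj (by rw [h0, map_zero]))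
  have h2 : x * (y * ((ε⁻¹ : Rˣ) : R)) = π ^ N := by
    calc x * (y * ((ε⁻¹ : Rˣ) : R)) = (x * y) * ((ε⁻¹ : Rˣ) : R) := by ring
      _ = π ^ N := by rw [hε, mul_comm (ε : R), mul_assoc, Units.mul_inv, mul_one]
  have h1 : algebraMap R K x * (algebraMap R K (y * ((ε⁻¹ : Rˣ) : R)) *
      (algebraMap R K π)⁻¹ ^ N) = 1 := by
    rw [← mul_assoc, ← map_mul, h2, map_pow, ← mul_pow, mul_inv_cancel₀ hπ0, one_pow]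
  rw [← eq_inv_of_mul_eq_one_right h1]
  exact V.mul_mem _ _ (hR _) (V.pow_mem hπ N)

section General

variable [IsIntegrallyClosed R] [IsNoetherianRing R] [𝔭₁.IsPrime] [𝔭₂.IsPrime]
  [IsDiscreteValuationRing (R ⧸ 𝔭₁)] [IsDiscreteValuationRing (R ⧸ 𝔭₂)]

/-- **Node-slope relation** (natural exponents, branch `𝔭₁`). -/
theorem dvd_slope_left_nat (h : IsNode463 𝔭₁ 𝔭₂ π x y N) {m : ℕ} (hm : m ≠ 0) {u : K}
    (hdiv : ∀ V : ValuationSubring K, IsDiscreteValuationRing V →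
      (∀ r : R, algebraMap R K r ∈ V) → (algebraMap R K π)⁻¹ ∈ V →
      ∃ g u₀ : K, u₀ ∈ V ∧ u₀⁻¹ ∈ V ∧ u = u₀ * g ^ m)
    {a₁ b₁ a₂ b₂ : R} {k₁ k₂ : ℕ}
    (ha₁ : a₁ ∉ 𝔭₁) (hb₁ : b₁ ∉ 𝔭₁) (ha₂ : a₂ ∉ 𝔭₂) (hb₂ : b₂ ∉ 𝔭₂)
    (h₁ : u * algebraMap R K b₁ = algebraMap R K π ^ k₁ * algebraMap R K a₁)
    (h₂ : u * algebraMap R K b₂ = algebraMap R K π ^ k₂ * algebraMap R K a₂)
    {α β : ℕ} {εa εb : (R ⧸ 𝔭₁)ˣ}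
    (hα : Ideal.Quotient.mk 𝔭₁ a₁ = εa * (Ideal.Quotient.mk 𝔭₁ x) ^ α)
    (hβ : Ideal.Quotient.mk 𝔭₁ b₁ = εb * (Ideal.Quotient.mk 𝔭₁ x) ^ β) :
    (m : ℤ) ∣ N * (N * ((α : ℤ) - β) + k₁ - k₂) := by
  obtain ⟨ε, hε⟩ := h.mul_eq
  have hinj : Function.Injective (algebraMap R K) := IsFractionRing.injective R K
  have hne : ∀ {z : R}, z ≠ 0 → algebraMap R K z ≠ 0 := fun hz h0 =>
    hz (hinj (by rw [h0, map_zero]))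
  have hp₁ : 𝔭₁.IsPrime := inferInstance
  have hp₂ : 𝔭₂.IsPrime := inferInstance
  have hεn₁ : (ε : R) ∉ 𝔭₁ := fun hmem => hp₁.ne_top (𝔭₁.eq_top_of_isUnit_mem hmem ε.isUnit)
  have hεn₂ : (ε : R) ∉ 𝔭₂ := fun hmem => hp₂.ne_top (𝔭₂.eq_top_of_isUnit_mem hmem ε.isUnit)
  have hmulₙ : ∀ {𝔭 : Ideal R}, 𝔭.IsPrime → ∀ {s t : R}, s ∉ 𝔭 → t ∉ 𝔭 → s * t ∉ 𝔭 :=
    fun h𝔭 _ _ hs ht hst => (h𝔭.mem_or_mem hst).elim hs ht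
  have hpowₙ : ∀ {𝔭 : Ideal R}, 𝔭.IsPrime → ∀ {s : R} (n : ℕ), s ∉ 𝔭 → s ^ n ∉ 𝔭 :=
    fun h𝔭 _ n hs hsn => hs (h𝔭.mem_of_pow_mem n hsn)
  -- the normalised element `g = u ^ N / (x ^ k₂ * y ^ k₁)` on the two branches
  obtain ⟨A₁, hA₁⟩ : ∃ A₁ : R, A₁ = x ^ k₁ * a₁ ^ N := ⟨_, rfl⟩
  obtain ⟨B₁, hB₁⟩ : ∃ B₁ : R, B₁ = x ^ k₂ * b₁ ^ N * (ε : R) ^ k₁ := ⟨_, rfl⟩
  obtain ⟨A₂, hA₂⟩ : ∃ A₂ : R, A₂ = y ^ k₂ * a₂ ^ N := ⟨_, rfl⟩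
  obtain ⟨B₂, hB₂⟩ : ∃ B₂ : R, B₂ = y ^ k₁ * b₂ ^ N * (ε : R) ^ k₂ := ⟨_, rfl⟩
  have hA₁n : A₁ ∉ 𝔭₁ := by
    rw [hA₁]
    exact hmulₙ hp₁ (hpowₙ hp₁ _ h.x_notMem) (hpowₙ hp₁ _ ha₁)
  have hB₁n : B₁ ∉ 𝔭₁ := by
    rw [hB₁]
    exact hmulₙ hp₁ (hmulₙ hp₁ (hpowₙ hp₁ _ h.x_notMem) (hpowₙ hp₁ _ hb₁)) (hpowₙ hp₁ _ hεn₁)
  have hA₂n : A₂ ∉ 𝔭₂ := by
    rw [hA₂]
    exact hmulₙ hp₂ (hpowₙ hp₂ _ h.y_notMem) (hpowₙ hp₂ _ ha₂)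
  have hB₂n : B₂ ∉ 𝔭₂ := by
    rw [hB₂]
    exact hmulₙ hp₂ (hmulₙ hp₂ (hpowₙ hp₂ _ h.y_notMem) (hpowₙ hp₂ _ hb₂)) (hpowₙ hp₂ _ hεn₂)
  have hcross : π ^ k₁ * a₁ * b₂ = π ^ k₂ * a₂ * b₁ := by
    apply hinj
    simp only [map_mul, map_pow]
    calc algebraMap R K π ^ k₁ * algebraMap R K a₁ * algebraMap R K b₂
        = (u * algebraMap R K b₁) * algebraMap R K b₂ := by rw [h₁]
      _ = (u * algebraMap R K b₂) * algebraMap R K b₁ := by ring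
      _ = algebraMap R K π ^ k₂ * algebraMap R K a₂ * algebraMap R K b₁ := by rw [h₂]
  have hAB : A₁ * B₂ = A₂ * B₁ := by
    have e1 : A₁ * B₂ = (ε : R) ^ k₂ * (x * y) ^ k₁ * (a₁ * b₂) ^ N := by
      rw [hA₁, hB₂]; ring
    have e2 : A₂ * B₁ = (ε : R) ^ k₁ * (x * y) ^ k₂ * (a₂ * b₁) ^ N := by
      rw [hA₂, hB₁]; ring
    have e3 : (ε : R) ^ k₂ * ((ε : R) * π ^ N) ^ k₁ * (a₁ * b₂) ^ N =
        (ε : R) ^ k₁ * (ε : R) ^ k₂ * (π ^ k₁ * a₁ * b₂) ^ N := by ring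
    have e4 : (ε : R) ^ k₁ * ((ε : R) * π ^ N) ^ k₂ * (a₂ * b₁) ^ N =
        (ε : R) ^ k₁ * (ε : R) ^ k₂ * (π ^ k₂ * a₂ * b₁) ^ N := by ring
    rw [e1, e2, hε, e3, e4, hcross]
  have hB₁0 : algebraMap R K B₁ ≠ 0 := hne (fun h0 => hB₁n (h0 ▸ 𝔭₁.zero_mem))
  obtain ⟨g, hg⟩ : ∃ g : K, g = algebraMap R K A₁ / algebraMap R K B₁ := ⟨_, rfl⟩
  have hg₁ : g * algebraMap R K B₁ = algebraMap R K A₁ := by
    rw [hg]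
    exact div_mul_cancel₀ _ hB₁0
  have hg₂ : g * algebraMap R K B₂ = algebraMap R K A₂ := by
    rw [hg, div_mul_eq_mul_div, div_eq_iff hB₁0, ← map_mul, ← map_mul, hAB]
  obtain ⟨A, B, hBn₁, hBn₂, hgB⟩ := exists_common_denominator (p₁ := 𝔭₁) (p₂ := 𝔭₂)
    ⟨A₁, B₁, hB₁n, hg₁⟩ ⟨A₂, B₂, hB₂n, hg₂⟩
  have hAB₁ : A * B₁ = A₁ * B := by
    apply hinj
    rw [map_mul, map_mul, ← hgB, ← hg₁]
    ring
  have hAB₂ : A * B₂ = A₂ * B := by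
    apply hinj
    rw [map_mul, map_mul, ← hgB, ← hg₂]
    ring
  have hAn₁ : A ∉ 𝔭₁ := by
    intro hA
    have : A₁ * B ∈ 𝔭₁ := hAB₁ ▸ 𝔭₁.mul_mem_right _ hA
    exact hmulₙ hp₁ hA₁n hBn₁ this
  have hAn₂ : A ∉ 𝔭₂ := by
    intro hA
    have : A₂ * B ∈ 𝔭₂ := hAB₂ ▸ 𝔭₂.mul_mem_right _ hA
    exact hmulₙ hp₂ hA₂n hBn₂ this
  obtain ⟨m', hm'⟩ := Nat.exists_eq_succ_of_ne_zero hm
  rw [Nat.succ_eq_add_one] at hm'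
  subst hm'
  obtain ⟨U, hU⟩ : ∃ U : R, U = A * B ^ m' := ⟨_, rfl⟩
  have hUn₁ : U ∉ 𝔭₁ := by
    rw [hU]
    exact hmulₙ hp₁ hAn₁ (hpowₙ hp₁ _ hBn₁)
  have hUn₂ : U ∉ 𝔭₂ := by
    rw [hU]
    exact hmulₙ hp₂ hAn₂ (hpowₙ hp₂ _ hBn₂)
  have hU0 : U ≠ 0 := fun h0 => hUn₁ (h0 ▸ 𝔭₁.zero_mem)
  have hUK : algebraMap R K U = g * algebraMap R K B ^ (m' + 1) := by
    rw [hU, map_mul, map_pow, ← hgB]
    ring
  have hπK : algebraMap R K π ≠ 0 := hne h.pi_ne_zero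
  have hxK : algebraMap R K x ≠ 0 := hne h.x_ne_zero
  have hεK : algebraMap R K (ε : R) ≠ 0 := hne ε.ne_zero
  have hb₁K : algebraMap R K b₁ ≠ 0 := hne (fun h0 => hb₁ (h0 ▸ 𝔭₁.zero_mem))
  -- `g` in terms of `u`
  have hgu : g * (algebraMap R K π ^ (N * k₁) * algebraMap R K x ^ k₂ *
      algebraMap R K (ε : R) ^ k₁) = u ^ N * algebraMap R K x ^ k₁ := by
    apply mul_right_cancel₀ (pow_ne_zero N hb₁K)
    have e1 : g * (algebraMap R K x ^ k₂ * algebraMap R K b₁ ^ N *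
        algebraMap R K (ε : R) ^ k₁) = algebraMap R K x ^ k₁ * algebraMap R K a₁ ^ N := by
      have := hg₁
      rw [hB₁, hA₁] at this
      simpa only [map_mul, map_pow] using this
    calc g * (algebraMap R K π ^ (N * k₁) * algebraMap R K x ^ k₂ *
          algebraMap R K (ε : R) ^ k₁) * algebraMap R K b₁ ^ N
        = algebraMap R K π ^ (N * k₁) * (g * (algebraMap R K x ^ k₂ *
            algebraMap R K b₁ ^ N * algebraMap R K (ε : R) ^ k₁)) := by ring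
      _ = algebraMap R K x ^ k₁ * (algebraMap R K π ^ k₁ * algebraMap R K a₁) ^ N := by
          rw [e1, mul_comm N k₁, pow_mul]; ring
      _ = u ^ N * algebraMap R K x ^ k₁ * algebraMap R K b₁ ^ N := by rw [← h₁]; ring
  -- (H1) for `U`
  have H1 : ∀ 𝔓 ∈ (Ideal.span {U}).minimalPrimes, π ∉ 𝔓 →
      ∃ f r : R, r ∉ 𝔓 ∧ f ^ (m' + 1) = U * r := by
    intro 𝔓 h𝔓 hπ𝔓
    refine exists_pow_eq_mul_of_divisible (K := K) hU0 hm h𝔓 ?_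
    intro V hV hle hinv
    have hπV : (algebraMap R K π)⁻¹ ∈ V := hinv π hπ𝔓
    obtain ⟨g₀, u₀, hu₀, hu₀', hug⟩ := hdiv V hV hle hπV
    have hxV : (algebraMap R K x)⁻¹ ∈ V := h.inv_x_mem V hle hπV
    obtain ⟨c, hc⟩ : ∃ c : K, c = algebraMap R K (x ^ k₁ * ((ε⁻¹ : Rˣ) : R) ^ k₁) *
      ((algebraMap R K π)⁻¹ ^ (N * k₁) * (algebraMap R K x)⁻¹ ^ k₂) := ⟨_, rfl⟩
    obtain ⟨c', hc'⟩ : ∃ c' : K, c' = algebraMap R K (π ^ (N * k₁) * x ^ k₂ * (ε : R) ^ k₁) *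
      (algebraMap R K x)⁻¹ ^ k₁ := ⟨_, rfl⟩
    have hεε : algebraMap R K ((ε⁻¹ : Rˣ) : R) * algebraMap R K (ε : R) = 1 := by
      rw [← map_mul, Units.inv_mul, map_one]
    have hcc : c * c' = 1 := by
      rw [hc, hc']
      simp only [map_mul, map_pow]
      have e1 : algebraMap R K x ^ k₁ * algebraMap R K ((ε⁻¹ : Rˣ) : R) ^ k₁ *
          ((algebraMap R K π)⁻¹ ^ (N * k₁) * (algebraMap R K x)⁻¹ ^ k₂) *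
          (algebraMap R K π ^ (N * k₁) * algebraMap R K x ^ k₂ * algebraMap R K (ε : R) ^ k₁ *
            (algebraMap R K x)⁻¹ ^ k₁) =
          (algebraMap R K x * (algebraMap R K x)⁻¹) ^ k₁ *
          (algebraMap R K ((ε⁻¹ : Rˣ) : R) * algebraMap R K (ε : R)) ^ k₁ *
          ((algebraMap R K π)⁻¹ * algebraMap R K π) ^ (N * k₁) *
          ((algebraMap R K x)⁻¹ * algebraMap R K x) ^ k₂ := by ring
      rw [e1, mul_inv_cancel₀ hxK, inv_mul_cancel₀ hπK, inv_mul_cancel₀ hxK, hεε]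
      simp
    have hcV : c ∈ V := by
      rw [hc]
      exact V.mul_mem _ _ (hle _) (V.mul_mem _ _ (V.pow_mem hπV _) (V.pow_mem hxV _))
    have hc'V : c' ∈ V := by
      rw [hc']
      exact V.mul_mem _ _ (hle _) (V.pow_mem hxV _)
    have hgc : g = u ^ N * c := by
      have e2 : algebraMap R K π ^ (N * k₁) * algebraMap R K x ^ k₂ *
          algebraMap R K (ε : R) ^ k₁ ≠ 0 :=
        mul_ne_zero (mul_ne_zero (pow_ne_zero _ hπK) (pow_ne_zero _ hxK)) (pow_ne_zero _ hεK)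
      apply mul_right_cancel₀ e2
      rw [hgu, hc]
      simp only [map_mul, map_pow]
      have e3 : u ^ N * (algebraMap R K x ^ k₁ * algebraMap R K ((ε⁻¹ : Rˣ) : R) ^ k₁ *
          ((algebraMap R K π)⁻¹ ^ (N * k₁) * (algebraMap R K x)⁻¹ ^ k₂)) *
          (algebraMap R K π ^ (N * k₁) * algebraMap R K x ^ k₂ * algebraMap R K (ε : R) ^ k₁) =
          u ^ N * algebraMap R K x ^ k₁ *
          ((algebraMap R K ((ε⁻¹ : Rˣ) : R) * algebraMap R K (ε : R)) ^ k₁ *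
          ((algebraMap R K π)⁻¹ * algebraMap R K π) ^ (N * k₁) *
          ((algebraMap R K x)⁻¹ * algebraMap R K x) ^ k₂) := by ring
      rw [e3, inv_mul_cancel₀ hπK, inv_mul_cancel₀ hxK, hεε]
      simp
    refine ⟨g₀ ^ N * algebraMap R K B, u₀ ^ N * c, V.mul_mem _ _ (V.pow_mem hu₀ _) hcV, ?_, ?_⟩
    · have e4 : (u₀ ^ N * c)⁻¹ = u₀⁻¹ ^ N * c' := by
        rw [mul_inv, inv_pow, inv_eq_of_mul_eq_one_right hcc]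
      rw [e4]
      exact V.mul_mem _ _ (V.pow_mem hu₀' _) hc'V
    · rw [hUK, hgc, hug]
      ring
  -- the orders on the branch `𝔭₁`
  have hq0 : ∀ {z : R}, z ∉ 𝔭₁ → Ideal.Quotient.mk 𝔭₁ z ≠ 0 := fun hz h0 =>
    hz (Ideal.Quotient.eq_zero_iff_mem.mp h0)
  obtain ⟨nU, εU, hnU⟩ := eq_unit_mul_pow_irreducible (hq0 hUn₁) h.x_irr
  have hcore : (m' + 1) ∣ N * nU :=
    h.dvd_thickness_mul_ord_left hm hUn₁ hUn₂ H1 hnU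
  obtain ⟨nA, εA, hnA⟩ := eq_unit_mul_pow_irreducible (hq0 hAn₁) h.x_irr
  obtain ⟨nB, εB, hnB⟩ := eq_unit_mul_pow_irreducible (hq0 hBn₁) h.x_irr
  have hvx : addVal (R ⧸ 𝔭₁) (Ideal.Quotient.mk 𝔭₁ x) = 1 := addVal_uniformizer h.x_irr
  have hvε : addVal (R ⧸ 𝔭₁) (Ideal.Quotient.mk 𝔭₁ (ε : R)) = 0 :=
    addVal_eq_zero_of_unit (Units.map (Ideal.Quotient.mk 𝔭₁ : R →* R ⧸ 𝔭₁) ε)
  have hva : addVal (R ⧸ 𝔭₁) (Ideal.Quotient.mk 𝔭₁ a₁) = α := addVal_def _ εa h.x_irr α hα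
  have hvb : addVal (R ⧸ 𝔭₁) (Ideal.Quotient.mk 𝔭₁ b₁) = β := addVal_def _ εb h.x_irr β hβ
  have hvA : addVal (R ⧸ 𝔭₁) (Ideal.Quotient.mk 𝔭₁ A) = nA := addVal_def _ εA h.x_irr nA hnA
  have hvB : addVal (R ⧸ 𝔭₁) (Ideal.Quotient.mk 𝔭₁ B) = nB := addVal_def _ εB h.x_irr nB hnB
  have hvU : addVal (R ⧸ 𝔭₁) (Ideal.Quotient.mk 𝔭₁ U) = nU := addVal_def _ εU h.x_irr nU hnU
  have e5 : nU = nA + m' * nB := by
    have := hvU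
    rw [hU, map_mul, map_pow, addVal_mul, addVal_pow, hvA, hvB, nsmul_eq_mul] at this
    exact_mod_cast this.symm
  have e6 : nA + (k₂ + N * β) = k₁ + N * α + nB := by
    have := congrArg (fun z => addVal (R ⧸ 𝔭₁) (Ideal.Quotient.mk 𝔭₁ z)) hAB₁
    simp only [hA₁, hB₁, map_mul, map_pow, addVal_mul, addVal_pow, hvA, hvB, hva, hvb, hvx, hvε,
      nsmul_eq_mul, mul_one, mul_zero, add_zero] at this
    exact_mod_cast this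
  obtain ⟨c, hc⟩ := hcore
  refine ⟨(c : ℤ) - N * nB, ?_⟩
  have e5' : (nU : ℤ) = nA + m' * nB := by exact_mod_cast e5
  have e6' : (nA : ℤ) + (k₂ + N * β) = k₁ + N * α + nB := by exact_mod_cast e6
  have hc' : (N : ℤ) * nU = (m' + 1) * c := by exact_mod_cast hc
  push_cast
  linear_combination hc' - (N : ℤ) * e5' - (N : ℤ) * e6'

/-- **Node-slope relation** (natural exponents, branch `𝔭₂`). -/
theorem dvd_slope_right_nat (h : IsNode463 𝔭₁ 𝔭₂ π x y N) {m : ℕ} (hm : m ≠ 0) {u : K}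
    (hdiv : ∀ V : ValuationSubring K, IsDiscreteValuationRing V →
      (∀ r : R, algebraMap R K r ∈ V) → (algebraMap R K π)⁻¹ ∈ V →
      ∃ g u₀ : K, u₀ ∈ V ∧ u₀⁻¹ ∈ V ∧ u = u₀ * g ^ m)
    {a₁ b₁ a₂ b₂ : R} {k₁ k₂ : ℕ}
    (ha₁ : a₁ ∉ 𝔭₁) (hb₁ : b₁ ∉ 𝔭₁) (ha₂ : a₂ ∉ 𝔭₂) (hb₂ : b₂ ∉ 𝔭₂)
    (h₁ : u * algebraMap R K b₁ = algebraMap R K π ^ k₁ * algebraMap R K a₁)
    (h₂ : u * algebraMap R K b₂ = algebraMap R K π ^ k₂ * algebraMap R K a₂)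
    {α β : ℕ} {εa εb : (R ⧸ 𝔭₂)ˣ}
    (hα : Ideal.Quotient.mk 𝔭₂ a₂ = εa * (Ideal.Quotient.mk 𝔭₂ y) ^ α)
    (hβ : Ideal.Quotient.mk 𝔭₂ b₂ = εb * (Ideal.Quotient.mk 𝔭₂ y) ^ β) :
    (m : ℤ) ∣ N * (N * ((α : ℤ) - β) + k₂ - k₁) :=
  h.symm.dvd_slope_left_nat hm hdiv ha₂ hb₂ ha₁ hb₁ h₂ h₁ hα hβ

/-- **Node-slope relation** (CT2 = P-NODE, branch `𝔭₁`).  `u ∈ Kˣ` with `m ∣ ord_V u` at the
horizontal valuations, `v_{𝔭₁}(u) = k₁`, `v_{𝔭₂}(u) = k₂`, slope `α - β` along `𝔭₁` at the node: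
`m ∣ N * (N * (α - β) + k₁ - k₂)`. -/
theorem dvd_slope_left (h : IsNode463 𝔭₁ 𝔭₂ π x y N) {m : ℕ} (hm : m ≠ 0) {u : K}
    (hdiv : ∀ V : ValuationSubring K, IsDiscreteValuationRing V →
      (∀ r : R, algebraMap R K r ∈ V) → (algebraMap R K π)⁻¹ ∈ V →
      ∃ g u₀ : K, u₀ ∈ V ∧ u₀⁻¹ ∈ V ∧ u = u₀ * g ^ m)
    {a₁ b₁ a₂ b₂ : R} {k₁ k₂ : ℤ}
    (ha₁ : a₁ ∉ 𝔭₁) (hb₁ : b₁ ∉ 𝔭₁) (ha₂ : a₂ ∉ 𝔭₂) (hb₂ : b₂ ∉ 𝔭₂)
    (h₁ : u * algebraMap R K b₁ = algebraMap R K π ^ k₁ * algebraMap R K a₁)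
    (h₂ : u * algebraMap R K b₂ = algebraMap R K π ^ k₂ * algebraMap R K a₂)
    {α β : ℕ} {εa εb : (R ⧸ 𝔭₁)ˣ}
    (hα : Ideal.Quotient.mk 𝔭₁ a₁ = εa * (Ideal.Quotient.mk 𝔭₁ x) ^ α)
    (hβ : Ideal.Quotient.mk 𝔭₁ b₁ = εb * (Ideal.Quotient.mk 𝔭₁ x) ^ β) :
    (m : ℤ) ∣ N * (N * ((α : ℤ) - β) + k₁ - k₂) := by
  have hinj : Function.Injective (algebraMap R K) := IsFractionRing.injective R K
  have hπK : algebraMap R K π ≠ 0 := fun h0 =>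
    h.pi_ne_zero (hinj (by rw [h0, map_zero]))
  obtain ⟨c, hc⟩ : ∃ c : ℕ, c = k₁.natAbs + k₂.natAbs := ⟨_, rfl⟩
  have hk₁ : 0 ≤ k₁ + c := by rw [hc]; push_cast; have := abs_nonneg k₂; have := neg_abs_le k₁; omega
  have hk₂ : 0 ≤ k₂ + c := by rw [hc]; push_cast; have := abs_nonneg k₁; have := neg_abs_le k₂; omega
  have hpow : ∀ k : ℤ, 0 ≤ k + c →
      algebraMap R K π ^ (k + c).toNat = algebraMap R K π ^ k * algebraMap R K π ^ c := by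
    intro k hk
    rw [← zpow_natCast, Int.toNat_of_nonneg hk, zpow_add₀ hπK, zpow_natCast]
  have hdiv' : ∀ V : ValuationSubring K, IsDiscreteValuationRing V →
      (∀ r : R, algebraMap R K r ∈ V) → (algebraMap R K π)⁻¹ ∈ V →
      ∃ g u₀ : K, u₀ ∈ V ∧ u₀⁻¹ ∈ V ∧ u * algebraMap R K π ^ c = u₀ * g ^ m := by
    intro V hV hle hπV
    obtain ⟨g, u₀, hu₀, hu₀', hug⟩ := hdiv V hV hle hπV
    refine ⟨g, u₀ * algebraMap R K π ^ c, V.mul_mem _ _ hu₀ (V.pow_mem (hle π) c), ?_, ?_⟩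
    · rw [mul_inv, ← inv_pow]
      exact V.mul_mem _ _ hu₀' (V.pow_mem hπV c)
    · rw [hug]
      ring
  have h₁' : u * algebraMap R K π ^ c * algebraMap R K b₁ =
      algebraMap R K π ^ (k₁ + c).toNat * algebraMap R K a₁ := by
    rw [hpow k₁ hk₁]
    calc u * algebraMap R K π ^ c * algebraMap R K b₁
        = (u * algebraMap R K b₁) * algebraMap R K π ^ c := by ring
      _ = algebraMap R K π ^ k₁ * algebraMap R K π ^ c * algebraMap R K a₁ := by rw [h₁]; ring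
  have h₂' : u * algebraMap R K π ^ c * algebraMap R K b₂ =
      algebraMap R K π ^ (k₂ + c).toNat * algebraMap R K a₂ := by
    rw [hpow k₂ hk₂]
    calc u * algebraMap R K π ^ c * algebraMap R K b₂
        = (u * algebraMap R K b₂) * algebraMap R K π ^ c := by ring
      _ = algebraMap R K π ^ k₂ * algebraMap R K π ^ c * algebraMap R K a₂ := by rw [h₂]; ring
  have key := h.dvd_slope_left_nat hm hdiv' ha₁ hb₁ ha₂ hb₂ h₁' h₂' hα hβ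
  rw [Int.toNat_of_nonneg hk₁, Int.toNat_of_nonneg hk₂] at key
  have e : (N : ℤ) * (N * ((α : ℤ) - β) + (k₁ + c) - (k₂ + c)) =
      N * (N * ((α : ℤ) - β) + k₁ - k₂) := by ring
  rwa [e] at key

/-- **Node-slope relation** (CT2 = P-NODE, branch `𝔭₂`). -/
theorem dvd_slope_right (h : IsNode463 𝔭₁ 𝔭₂ π x y N) {m : ℕ} (hm : m ≠ 0) {u : K}
    (hdiv : ∀ V : ValuationSubring K, IsDiscreteValuationRing V →
      (∀ r : R, algebraMap R K r ∈ V) → (algebraMap R K π)⁻¹ ∈ V →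
      ∃ g u₀ : K, u₀ ∈ V ∧ u₀⁻¹ ∈ V ∧ u = u₀ * g ^ m)
    {a₁ b₁ a₂ b₂ : R} {k₁ k₂ : ℤ}
    (ha₁ : a₁ ∉ 𝔭₁) (hb₁ : b₁ ∉ 𝔭₁) (ha₂ : a₂ ∉ 𝔭₂) (hb₂ : b₂ ∉ 𝔭₂)
    (h₁ : u * algebraMap R K b₁ = algebraMap R K π ^ k₁ * algebraMap R K a₁)
    (h₂ : u * algebraMap R K b₂ = algebraMap R K π ^ k₂ * algebraMap R K a₂)
    {α β : ℕ} {εa εb : (R ⧸ 𝔭₂)ˣ}
    (hα : Ideal.Quotient.mk 𝔭₂ a₂ = εa * (Ideal.Quotient.mk 𝔭₂ y) ^ α)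
    (hβ : Ideal.Quotient.mk 𝔭₂ b₂ = εb * (Ideal.Quotient.mk 𝔭₂ y) ^ β) :
    (m : ℤ) ∣ N * (N * ((α : ℤ) - β) + k₂ - k₁) :=
  h.symm.dvd_slope_left hm hdiv ha₂ hb₂ ha₁ hb₁ h₂ h₁ hα hβ

/-- **Node-slope relation for thickness prime to `m`** (the form used in (I6)):
`v_{𝔭₂}(u) - v_{𝔭₁}(u) ≡ N * (slope of u along 𝔭₁ at the node)  (mod m)`. -/
theorem slope_left_of_coprime (h : IsNode463 𝔭₁ 𝔭₂ π x y N) {m : ℕ} (hm : m ≠ 0)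
    (hmN : Nat.Coprime m N) {u : K}
    (hdiv : ∀ V : ValuationSubring K, IsDiscreteValuationRing V →
      (∀ r : R, algebraMap R K r ∈ V) → (algebraMap R K π)⁻¹ ∈ V →
      ∃ g u₀ : K, u₀ ∈ V ∧ u₀⁻¹ ∈ V ∧ u = u₀ * g ^ m)
    {a₁ b₁ a₂ b₂ : R} {k₁ k₂ : ℤ}
    (ha₁ : a₁ ∉ 𝔭₁) (hb₁ : b₁ ∉ 𝔭₁) (ha₂ : a₂ ∉ 𝔭₂) (hb₂ : b₂ ∉ 𝔭₂)
    (h₁ : u * algebraMap R K b₁ = algebraMap R K π ^ k₁ * algebraMap R K a₁)
    (h₂ : u * algebraMap R K b₂ = algebraMap R K π ^ k₂ * algebraMap R K a₂)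
    {α β : ℕ} {εa εb : (R ⧸ 𝔭₁)ˣ}
    (hα : Ideal.Quotient.mk 𝔭₁ a₁ = εa * (Ideal.Quotient.mk 𝔭₁ x) ^ α)
    (hβ : Ideal.Quotient.mk 𝔭₁ b₁ = εb * (Ideal.Quotient.mk 𝔭₁ x) ^ β) :
    k₂ - k₁ ≡ N * ((α : ℤ) - β) [ZMOD m] := by
  have key := h.dvd_slope_left hm hdiv ha₁ hb₁ ha₂ hb₂ h₁ h₂ hα hβ
  have hcop : IsCoprime (m : ℤ) (N : ℤ) := Nat.isCoprime_iff_coprime.mpr hmN
  have h3 : (m : ℤ) ∣ N * ((α : ℤ) - β) + k₁ - k₂ := hcop.dvd_of_dvd_mul_left key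
  rw [Int.modEq_iff_dvd]
  have e : (N : ℤ) * ((α : ℤ) - β) - (k₂ - k₁) = N * ((α : ℤ) - β) + k₁ - k₂ := by ring
  rwa [e]

/-- **Node-slope relation for thickness prime to `m`**, branch `𝔭₂`:
`v_{𝔭₁}(u) - v_{𝔭₂}(u) ≡ N * (slope of u along 𝔭₂ at the node)  (mod m)`. -/
theorem slope_right_of_coprime (h : IsNode463 𝔭₁ 𝔭₂ π x y N) {m : ℕ} (hm : m ≠ 0)
    (hmN : Nat.Coprime m N) {u : K}
    (hdiv : ∀ V : ValuationSubring K, IsDiscreteValuationRing V →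
      (∀ r : R, algebraMap R K r ∈ V) → (algebraMap R K π)⁻¹ ∈ V →
      ∃ g u₀ : K, u₀ ∈ V ∧ u₀⁻¹ ∈ V ∧ u = u₀ * g ^ m)
    {a₁ b₁ a₂ b₂ : R} {k₁ k₂ : ℤ}
    (ha₁ : a₁ ∉ 𝔭₁) (hb₁ : b₁ ∉ 𝔭₁) (ha₂ : a₂ ∉ 𝔭₂) (hb₂ : b₂ ∉ 𝔭₂)
    (h₁ : u * algebraMap R K b₁ = algebraMap R K π ^ k₁ * algebraMap R K a₁)
    (h₂ : u * algebraMap R K b₂ = algebraMap R K π ^ k₂ * algebraMap R K a₂)
    {α β : ℕ} {εa εb : (R ⧸ 𝔭₂)ˣ}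
    (hα : Ideal.Quotient.mk 𝔭₂ a₂ = εa * (Ideal.Quotient.mk 𝔭₂ y) ^ α)
    (hβ : Ideal.Quotient.mk 𝔭₂ b₂ = εb * (Ideal.Quotient.mk 𝔭₂ y) ^ β) :
    k₁ - k₂ ≡ N * ((α : ℤ) - β) [ZMOD m] :=
  h.symm.slope_left_of_coprime hm hmN hdiv ha₂ hb₂ ha₁ hb₁ h₂ h₁ hα hβ

end General

end IsNode463

end Fermat.Agent.Ribet.H463
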