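import Fermat.Agent.Ribet.H873.UnitPair
import Fermat.Agent.Ribet.H884.EisSpec

/-!
# RIBET row 38, CORE-OUT: adapter UNIT-EXP (helper463)

`H873.exists_unitPair_cut873` (INST-B on main) gives the unit pair of the finite chart
EXISTENTIALLY.  The assemblies of `H704.CoreOut.WildFrameStatement` and of TAME need the unit pair
of the chart to be THE modular unit of `H884.SlopeProp` (`H884.IsModUnit`: `t`-expansion
`S28.unitL ℚ̄ p = Δ(t^p)/Δ(t)`).  This file states INST-B with the `t`-expansions: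

* `exists_isModUnit463`        : `∃ D : FF (p * M'), IsModUnit p M' D ∧ D ≠ 0`;
* `unitPair_exp463`            : `D₁, D₁'` in the chart `B = chartAlg x`, `D₁ D₁' = q¹²`,
                                 `D₁ ∉ w V∞`, `D₁' ∉ w V₀`, with
                                 `D₁ = Δ(t)/Δ(t^q)`, `D₁' = q¹² Δ(t^q)/Δ(t)` as `t`-series;
* `exists_unitPair_exp463`     : normalised (`q ε = w ^ e`): `D₁ D₁' = w ^ (12 e)`,
                                 `D₁ = Δ(t)/Δ(t^q)` as `t`-series;
* `exists_unitPair_cut_exp463` : the same in cut form (`D₁ ∉ p₁`, `D₁' ∉ p₂`) = the fields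
                                 `hDD`, `hD`, `hD'` of `H704.CoreOut.WildFrame`;
* `isModUnit_mul_coeffMap463`  : `IsModUnit p M' D`, `D₂ = Δ(t)/Δ(t^p)` over `E` ⟹
                                 `D · coeffMap D₂ = 1` (the conjunct of `WildFrameStatement`);
* `eq_of_coe_castE463`         : two levels: elements with the same integral `t`-expansion
                                 correspond under every coefficientwise map (`hD₂`).
-/

set_option autoImplicit false
set_option synthInstance.maxHeartbeats 400000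
set_option maxHeartbeats 1600000
set_option linter.unusedSectionVars false
set_option linter.style.haveILetI false

noncomputable section

namespace Fermat.Agent.Ribet.H463.UnitExp

open ModularCurve HahnSeries
open Fermat.Agent.A2.Mod Fermat.Agent.S28 Fermat.Agent.S24
open Fermat.Agent.Ribet.H884

/-! ## The modular unit over `ℚ̄` -/

/-- `Δ(t^p)/Δ(t)` over `ℚ̄` is not zero. -/
theorem unitL_bar_ne_zero463 (p : ℕ) [NeZero p] : unitL Kbar p ≠ 0 := by
  intro h
  have h1 : coeffMap (Int.castRingHom Kbar) (unitL ℤ p * H589.unitL' p) = 1 := by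
    rw [Fermat.Agent.S36.H438.unitL_mul_unitL', map_one]
  rw [map_mul, h88_coeffMap_unitL, h, zero_mul] at h1
  exact zero_ne_one h1

/-- `Δ(t^p)/Δ(t)` lies in the function field of level `p * M'` over `ℚ̄`. -/
theorem unitL_bar_mem463 (p M' : ℕ) [NeZero p] [NeZero (p * M')] :
    unitL Kbar p ∈ modularFunctionFieldBar (p * M') :=
  Fermat.Agent.S36.H438.laurentBaseChange_mono_h438 Kbar
    (full_degeneracy_le (dvd_mul_right p M')) (Fermat.Agent.S36.H438.unitL_bar_mem p)

/-- **The modular unit exists** in `FF (p * M')`. -/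
theorem exists_isModUnit463 (p M' : ℕ) [NeZero M'] [NeZero p] [NeZero (p * M')] :
    ∃ D : FF (p * M'), IsModUnit p M' D ∧ D ≠ 0 := by
  refine ⟨⟨unitL Kbar p, unitL_bar_mem463 p M'⟩, rfl, ?_⟩
  intro h
  exact unitL_bar_ne_zero463 p (congrArg Subtype.val h)

/-- The `t`-expansion of the inverse of the modular unit: `D · coeffMap D₂ = 1` whenever
`D₂ = Δ(t)/Δ(t^p)` over a level `E`. -/
theorem isModUnit_mul_coeffMap463 (p M' : ℕ) [NeZero M'] [NeZero p] [NeZero (p * M')]
    (E : IntermediateField ℚ Qb) {D : FF (p * M')} (hD : IsModUnit p M' D)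
    {X : LaurentSeries E} (hX : X = Fermat.Agent.S36.H438.castE E (H589.unitL' p)) :
    (D : LaurentSeries Kbar) * coeffMap (algebraMap E Kbar) X = 1 := by
  have hD' : (D : LaurentSeries Kbar) = unitL Kbar p := hD
  rw [hD', hX, Fermat.Agent.S36.H438.coeffMap_castE, ← h88_coeffMap_unitL (Int.castRingHom Kbar),
    ← map_mul, Fermat.Agent.S36.H438.unitL_mul_unitL', map_one]

/-- Two levels: the coefficientwise image of an integral series is the integral series. -/
theorem coeffMap_castE_castE463 (E₁ E₂ : IntermediateField ℚ Qb) (g : E₁ →+* E₂)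
    (X : LaurentSeries ℤ) :
    coeffMap g (Fermat.Agent.S36.H438.castE E₁ X) = Fermat.Agent.S36.H438.castE E₂ X := by
  rw [Fermat.Agent.S36.H438.castE, coeffMap_coeffMap]
  exact coeffMap_congr (Subsingleton.elim _ _) X

/-- Two levels: elements with the same integral `t`-expansion correspond under every map of
function fields which is coefficientwise on `t`-expansions. -/
theorem eq_of_coe_castE463 (E₁ E₂ : IntermediateField ℚ Qb) (N₁ N₂ : ℕ) (g : E₁ →+* E₂)
    (φ : FE E₁ N₁ → FE E₂ N₂)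
    (hφ : ∀ f : FE E₁ N₁, ((φ f : FE E₂ N₂) : LaurentSeries E₂) =
      coeffMap g (f : LaurentSeries E₁))
    (X : LaurentSeries ℤ) {D₁ : FE E₁ N₁} {D₂ : FE E₂ N₂}
    (h₁ : (D₁ : LaurentSeries E₁) = Fermat.Agent.S36.H438.castE E₁ X)
    (h₂ : (D₂ : LaurentSeries E₂) = Fermat.Agent.S36.H438.castE E₂ X) : φ D₁ = D₂ := by
  apply Subtype.ext
  rw [hφ, h₁, h₂, coeffMap_castE_castE463]

/-- **The modular unit and its inverse at a level `E`**: the three conjuncts
`IsModUnit p M' D ∧ D ≠ 0 ∧ D · coeffMap D₂ = 1` of `H704.CoreOut.WildFrameStatement`, with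
`D₂ = S36.H438.uE' = Δ(t)/Δ(t^p) ∈ F_E` of level `M' * p`. -/
theorem exists_modUnit_pair463 (p M' : ℕ) [NeZero M'] [NeZero p] [NeZero (p * M')]
    (E : IntermediateField ℚ Qb) :
    ∃ (D : FF (p * M')) (D₂ : FE E (M' * p)), IsModUnit p M' D ∧ D ≠ 0 ∧
      (D : LaurentSeries Kbar) * coeffMap (algebraMap E Kbar) (D₂ : LaurentSeries E) = 1 ∧
      (D₂ : LaurentSeries E) = Fermat.Agent.S36.H438.castE E (H589.unitL' p) ∧
      D₂ = Fermat.Agent.S36.H438.uE' E (M' * p) p (dvd_mul_left p M') := by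
  obtain ⟨D, hD, hD0⟩ := exists_isModUnit463 p M'
  exact ⟨D, Fermat.Agent.S36.H438.uE' E (M' * p) p (dvd_mul_left p M'), hD, hD0,
    isModUnit_mul_coeffMap463 p M' E hD rfl, rfl, rfl⟩

/-- An element of `F_E` with the `t`-expansion `Δ(t)/Δ(t^p)` is `S36.H438.uE'`. -/
theorem eq_uE'_of_coe463 (E : IntermediateField ℚ Qb) (N p : ℕ) [NeZero N] [NeZero p]
    (hpN : p ∣ N) {D : FE E N}
    (hD : (D : LaurentSeries E) = Fermat.Agent.S36.H438.castE E (H589.unitL' p)) :
    D = Fermat.Agent.S36.H438.uE' E N p hpN :=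
  Subtype.ext hD

/-! ## The unit pair of the finite chart, with `t`-expansions -/

variable {P : ValuationSubring Qb} {E : IntermediateField ℚ Qb}
variable {M q : ℕ} [NeZero M] [NeZero q]

/-- **INST-B with expansions.**  `D₁ = Δ(t)/Δ(t^q)` and `D₁' = q¹² Δ(t^q)/Δ(t)` lie in the chart
`B = chartAlg x`, `D₁ D₁' = q¹²`, `D₁ ∉ w V∞`, `D₁' ∉ w V₀`. -/
theorem unitPair_exp463 {w : RE P E} (hS : Setting P E M q w)
    {V : ValuationSubring (FE E (M * q))} {W : FE E (M * q) ≃ₐ[E] FE E (M * q)}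
    (hV : IsVinf P E (M * q) V) (hW : IsFricke E (M * q) W) :
    ∃ D D' : FE E (M * q),
      (D : LaurentSeries E) = Fermat.Agent.S36.H438.castE E (H589.unitL' q) ∧
      (D' : LaurentSeries E) =
        Fermat.Agent.S36.H438.castE E ((q : LaurentSeries ℤ) ^ 12 * unitL ℤ q) ∧
      D ∈ chartAlg P E (M * q) (xE E M q) ∧ D' ∈ chartAlg P E (M * q) (xE E M q) ∧
      D * D' = cE P E (M * q) ((q : RE P E) ^ 12) ∧
      ¬ InW P E (M * q) V w D ∧
      ¬ InW P E (M * q) (V.comap (W : FE E (M * q) →+* FE E (M * q))) w D' := by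
  obtain ⟨D', D, hD'e, hDe, hmul, hD', hD, hVu, hV0u, -⟩ :=
    Fermat.Agent.S36.H438.mu_package P E M q hS.q_prime
  have hc0 : algebraMap E (FE E (M * q)) ((q : E) ^ 12) ≠ 0 := by
    rw [Ne, map_eq_zero]
    exact pow_ne_zero 12 (Nat.cast_ne_zero.mpr (NeZero.ne q))
  have hD0 : D ≠ 0 := by
    rintro rfl
    rw [mul_zero] at hmul
    exact hc0 hmul.symm
  have hD'0 : D' ≠ 0 := by
    rintro rfl
    rw [zero_mul] at hmul
    exact hc0 hmul.symm
  refine ⟨D, D', hDe, hD'e, hD, hD', ?_, ?_, ?_⟩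
  · rw [mul_comm D D', hmul, cE]
    congr 1
  · exact Fermat.Agent.Ribet.H873.not_inW_of_inv_mem873
      (Fermat.Agent.Ribet.H873.cE_inv_not_mem873 hS.dvr hS.unif hV) hD0 (hVu V hV).2
  · exact Fermat.Agent.Ribet.H873.not_inW_of_inv_mem873
      (Fermat.Agent.Ribet.H873.cE_inv_not_mem_comap873 hS.dvr hS.unif hV W) hD'0
      (hV0u V W hV hW).2

/-- **INST-B with expansions, normalised.**  With `q ε = w ^ e` in `R_E` (`ε` a unit, `e ≥ 1`):
`D₁ · D₁' = w ^ (12 e)`, `D₁ ∉ w V∞`, `D₁' ∉ w V₀`, and `D₁ = Δ(t)/Δ(t^q)`,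
`D₁' = ε¹² q¹² Δ(t^q)/Δ(t)` as `t`-series. -/
theorem exists_unitPair_exp463 {w : RE P E} (hS : Setting P E M q w)
    {V : ValuationSubring (FE E (M * q))} {W : FE E (M * q) ≃ₐ[E] FE E (M * q)}
    (hV : IsVinf P E (M * q) V) (hW : IsFricke E (M * q) W) :
    ∃ (e : ℕ) (ε : (RE P E)ˣ) (D D' : chartAlg P E (M * q) (xE E M q)), 0 < e ∧
      ((q : ℕ) : RE P E) * (ε : RE P E) = w ^ e ∧
      D * D' = algebraMap (RE P E) (chartAlg P E (M * q) (xE E M q)) w ^ (12 * e) ∧
      ¬ InW P E (M * q) V w (D : FE E (M * q)) ∧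
      ¬ InW P E (M * q) (V.comap (W : FE E (M * q) →+* FE E (M * q))) w
        (D' : FE E (M * q)) ∧
      (((D : FE E (M * q)) : LaurentSeries E) =
        Fermat.Agent.S36.H438.castE E (H589.unitL' q)) ∧
      (D' : FE E (M * q)) = cE P E (M * q) ((ε : RE P E) ^ 12) *
        (Fermat.Agent.S36.H438.uE E (M * q) q (dvd_mul_left q M) *
          algebraMap E (FE E (M * q)) ((q : E) ^ 12)) := by
  haveI := hS.dvr
  obtain ⟨D₀, D₀', hDe, hD'e, hD, hD', hmul, hDV, hD'V⟩ := unitPair_exp463 hS hV hW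
  have hq0 : ((q : ℕ) : RE P E) ≠ 0 := Nat.cast_ne_zero.mpr (NeZero.ne q)
  obtain ⟨e, he⟩ := IsDiscreteValuationRing.associated_pow_irreducible hq0 hS.unif
  have he0 : 0 < e := by
    rcases Nat.eq_zero_or_pos e with h0 | h0
    · exfalso
      rw [h0, pow_zero] at he
      exact Fermat.Agent.Ribet.H873.not_isUnit_natCast873 hS.lies_over
        (he.symm.isUnit_iff.mp isUnit_one)
    · exact h0
  obtain ⟨ε, hε⟩ := he
  set B := chartAlg P E (M * q) (xE E M q) with hB
  have hD₀'eq : D₀' = Fermat.Agent.S36.H438.uE E (M * q) q (dvd_mul_left q M) *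
      algebraMap E (FE E (M * q)) ((q : E) ^ 12) := by
    apply Subtype.ext
    rw [hD'e, map_mul]
    show _ = ((Fermat.Agent.S36.H438.uE E (M * q) q (dvd_mul_left q M) : FE E (M * q)) :
        LaurentSeries E) * ((algebraMap E (FE E (M * q)) ((q : E) ^ 12) : FE E (M * q)) :
        LaurentSeries E)
    rw [Fermat.Agent.S36.H438.coe_uE, mul_comm]
    congr 1
    have h1 : ((algebraMap E (FE E (M * q)) ((q : E) ^ 12) : FE E (M * q)) : LaurentSeries E) =
        algebraMap E (LaurentSeries E) ((q : E) ^ 12) := rfl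
    rw [h1, map_pow, map_pow, map_natCast, map_natCast]
  refine ⟨e, ε, ⟨D₀, hD⟩, algebraMap (RE P E) B ((ε : RE P E) ^ 12) * ⟨D₀', hD'⟩,
    he0, hε, ?_, hDV, ?_, hDe, ?_⟩
  · apply Subtype.ext
    show D₀ * (algebraMap (RE P E) (FE E (M * q)) ((ε : RE P E) ^ 12) * D₀') =
      (algebraMap (RE P E) (FE E (M * q)) w) ^ (12 * e)
    have hcE : cE P E (M * q) ((q : RE P E) ^ 12) =
        algebraMap (RE P E) (FE E (M * q)) ((q : RE P E) ^ 12) := rfl
    rw [mul_left_comm, hmul, hcE, ← map_mul, ← map_pow]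
    congr 1
    rw [pow_mul', ← hε]
    ring
  · intro h
    apply hD'V
    have hεV : algebraMap (RE P E) (FE E (M * q)) (((ε⁻¹ : (RE P E)ˣ) : RE P E) ^ 12) ∈
        V.comap (W : FE E (M * q) →+* FE E (M * q)) := by
      rw [ValuationSubring.mem_comap]
      have h1 : (W : FE E (M * q) →+* FE E (M * q))
          (algebraMap (RE P E) (FE E (M * q)) (((ε⁻¹ : (RE P E)ˣ) : RE P E) ^ 12)) =
          algebraMap E (FE E (M * q)) ((((ε⁻¹ : (RE P E)ˣ) : RE P E) ^ 12 : RE P E) : E) :=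
        W.commutes _
      rw [h1]
      exact (Fermat.Agent.A2.Mod.H708.algebraMap_mem_iff_of_isVinf hV _).mpr (Subtype.mem _)
    have h2 := (V.comap (W : FE E (M * q) →+* FE E (M * q))).mul_mem _ _ hεV h
    have h3 : algebraMap (RE P E) (FE E (M * q)) (((ε⁻¹ : (RE P E)ˣ) : RE P E) ^ 12) *
        (((algebraMap (RE P E) B ((ε : RE P E) ^ 12) * ⟨D₀', hD'⟩ : B) : FE E (M * q)) *
          (cE P E (M * q) w)⁻¹) = D₀' * (cE P E (M * q) w)⁻¹ := by
      have h4 : algebraMap (RE P E) (FE E (M * q)) (((ε⁻¹ : (RE P E)ˣ) : RE P E) ^ 12) *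
          algebraMap (RE P E) (FE E (M * q)) ((ε : RE P E) ^ 12) = 1 := by
        rw [← map_mul, ← mul_pow, Units.inv_mul, one_pow, map_one]
      show algebraMap (RE P E) (FE E (M * q)) (((ε⁻¹ : (RE P E)ˣ) : RE P E) ^ 12) *
        ((algebraMap (RE P E) (FE E (M * q)) ((ε : RE P E) ^ 12) * D₀') *
          (cE P E (M * q) w)⁻¹) = _
      rw [← mul_assoc, ← mul_assoc, h4, one_mul]
    rw [h3] at h2
    exact h2
  · show algebraMap (RE P E) (FE E (M * q)) ((ε : RE P E) ^ 12) * D₀' = _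
    rw [hD₀'eq]
    rfl

/-- **INST-B with expansions, cut form** (fields `hDD`, `hD`, `hD'` of `H704.CoreOut.WildFrame`
and the unit pair of `H868.pureAt_tame`, for THE modular unit): for the components
`p₁ = B ∩ w V∞`, `p₂ = B ∩ w V₀` of the chart `B = chartAlg x`:
`D₁ · D₁' = w ^ (12 e)`, `D₁ ∉ p₁`, `D₁' ∉ p₂`, `D₁ = Δ(t)/Δ(t^q)` as a `t`-series. -/
theorem exists_unitPair_cut_exp463 {w : RE P E} (hS : Setting P E M q w)
    {V : ValuationSubring (FE E (M * q))} {W : FE E (M * q) ≃ₐ[E] FE E (M * q)}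
    (hV : IsVinf P E (M * q) V) (hW : IsFricke E (M * q) W)
    (p₁ p₂ : Ideal (chartAlg P E (M * q) (xE E M q)))
    (hc₁ : IsCut P E (M * q) w V (chartAlg P E (M * q) (xE E M q)) p₁)
    (hc₂ : IsCut P E (M * q) w (V.comap (W : FE E (M * q) →+* FE E (M * q)))
      (chartAlg P E (M * q) (xE E M q)) p₂) :
    ∃ (e : ℕ) (D D' : chartAlg P E (M * q) (xE E M q)), 0 < e ∧
      Associated ((q : ℕ) : RE P E) (w ^ e) ∧
      D * D' = algebraMap (RE P E) (chartAlg P E (M * q) (xE E M q)) w ^ (12 * e) ∧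
      D ∉ p₁ ∧ D' ∉ p₂ ∧
      (((D : FE E (M * q)) : LaurentSeries E) =
        Fermat.Agent.S36.H438.castE E (H589.unitL' q)) := by
  obtain ⟨e, ε, D, D', he, hε, hmul, hD, hD', hDe, -⟩ := exists_unitPair_exp463 hS hV hW
  exact ⟨e, D, D', he, ⟨ε, hε⟩, hmul, fun h => hD ((hc₁ D).mp h),
    fun h => hD' ((hc₂ D').mp h), hDe⟩

end Fermat.Agent.Ribet.H463.UnitExp

end
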